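import Fermat.Agent.S27.E.Defs

/-!
# Block E, file Semigroup: combinatorics of the semigroup `H = {m t + b_j}` (pure `ℕ` arithmetic)
-/

set_option autoImplicit false

namespace Fermat.Agent.S27.Shape

variable (s : Shape)

theorem wt_mod (jt : Fin s.m × ℕ) : s.wt jt % s.m = jt.1 := by
  rw [wt, Nat.mul_add_mod, s.b_mod]

/-- weights of distinct monomials are distinct (`b_j ≡ j mod m`). -/
theorem wt_injective : Function.Injective s.wt := by
  rintro ⟨j, t⟩ ⟨j', t'⟩ h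
  have h1 : j = j' := by
    apply Fin.ext
    have h2 := s.wt_mod (j, t)
    have h3 := s.wt_mod (j', t')
    rw [h] at h2
    exact h2.symm.trans h3
  subst h1
  have h4 : s.m * t = s.m * t' := by
    simp only [wt] at h
    omega
  rw [Nat.eq_of_mul_eq_mul_left s.m_pos h4]

theorem mem_H_iff (n : ℕ) : n ∈ s.H ↔ s.b ⟨n % s.m, Nat.mod_lt _ s.m_pos⟩ ≤ n := by
  constructor
  · rintro ⟨⟨j, t⟩, rfl⟩
    have h1 : (⟨s.wt (j, t) % s.m, Nat.mod_lt _ s.m_pos⟩ : Fin s.m) = j :=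
      Fin.ext (s.wt_mod (j, t))
    rw [h1]
    simp only [wt]
    omega
  · intro h
    set j : Fin s.m := ⟨n % s.m, Nat.mod_lt _ s.m_pos⟩ with hj
    have h1 : s.b j % s.m = n % s.m := s.b_mod j
    have h2 : (n - s.b j) % s.m = 0 := Nat.sub_mod_eq_zero_of_mod_eq h1.symm
    refine ⟨(j, (n - s.b j) / s.m), ?_⟩
    have h3 := Nat.div_add_mod (n - s.b j) s.m
    simp only [wt]
    omega

theorem zero_mem_H : 0 ∈ s.H := by
  refine ⟨(s.zero, 0), ?_⟩
  simp only [wt, mul_zero, zero_add]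
  exact s.b_zero s.zero rfl

/-- uses `b_add`. -/
theorem add_mem_H {a b : ℕ} (ha : a ∈ s.H) (hb : b ∈ s.H) : a + b ∈ s.H := by
  obtain ⟨⟨i, t⟩, rfl⟩ := ha
  obtain ⟨⟨j, t'⟩, rfl⟩ := hb
  rw [mem_H_iff]
  have h1 : ((i : ℕ) + j) % s.m
      = ((⟨(s.wt (i, t) + s.wt (j, t')) % s.m, Nat.mod_lt _ s.m_pos⟩ : Fin s.m) : ℕ) := by
    show _ = (s.wt (i, t) + s.wt (j, t')) % s.m
    rw [Nat.add_mod (s.wt (i, t)), s.wt_mod, s.wt_mod]
  have h2 := s.b_add i j _ h1
  refine h2.trans ?_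
  simp only [wt]
  omega

theorem Semigroup_notMem_H_iff (n : ℕ) :
    n ∉ s.H ↔ n < s.b ⟨n % s.m, Nat.mod_lt _ s.m_pos⟩ := by
  rw [mem_H_iff, not_le]

/-- the parametrisation of the gaps. -/
def Semigroup_gap (x : Σ j : Fin s.m, Fin (s.b j / s.m)) : ℕ := (x.1 : ℕ) + s.m * (x.2 : ℕ)

theorem Semigroup_gap_mod (x : Σ j : Fin s.m, Fin (s.b j / s.m)) :
    s.Semigroup_gap x % s.m = x.1 := by
  rw [Semigroup_gap, Nat.add_mul_mod_self_left, Nat.mod_eq_of_lt x.1.2]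

theorem Semigroup_gap_injective : Function.Injective s.Semigroup_gap := by
  rintro ⟨j, i⟩ ⟨j', i'⟩ h
  have h1 : j = j' := by
    apply Fin.ext
    have h2 := s.Semigroup_gap_mod ⟨j, i⟩
    have h3 := s.Semigroup_gap_mod ⟨j', i'⟩
    rw [h] at h2
    exact h2.symm.trans h3
  subst h1
  have h4 : s.m * (i : ℕ) = s.m * (i' : ℕ) := by
    simp only [Semigroup_gap] at h
    omega
  have h5 : i = i' := Fin.ext (Nat.eq_of_mul_eq_mul_left s.m_pos h4)
  rw [h5]

theorem Semigroup_range_gap : Set.range s.Semigroup_gap = (s.H)ᶜ := by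
  ext n
  rw [Set.mem_compl_iff, Semigroup_notMem_H_iff]
  constructor
  · rintro ⟨⟨j, i⟩, rfl⟩
    have h1 : (⟨s.Semigroup_gap ⟨j, i⟩ % s.m, Nat.mod_lt _ s.m_pos⟩ : Fin s.m) = j :=
      Fin.ext (s.Semigroup_gap_mod ⟨j, i⟩)
    rw [h1]
    have h2 := Nat.div_add_mod (s.b j) s.m
    rw [s.b_mod j] at h2
    have h3 : s.m * ((i : ℕ) + 1) ≤ s.m * (s.b j / s.m) := Nat.mul_le_mul_left _ i.2
    simp only [Semigroup_gap]
    rw [Nat.mul_add, Nat.mul_one] at h3
    have := s.m_pos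
    omega
  · intro h
    set j : Fin s.m := ⟨n % s.m, Nat.mod_lt _ s.m_pos⟩ with hj
    have h2 := Nat.div_add_mod (s.b j) s.m
    rw [s.b_mod j] at h2
    have h3 := Nat.div_add_mod n s.m
    have hjn : (j : ℕ) = n % s.m := rfl
    have h4 : n / s.m < s.b j / s.m := by
      apply Nat.lt_of_mul_lt_mul_left (a := s.m)
      omega
    refine ⟨⟨j, ⟨n / s.m, h4⟩⟩, ?_⟩
    simp only [Semigroup_gap]
    omega

/-- the gaps in the class of `j` mod `m` are `j, j + m, …, b_j - m`. -/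
theorem finite_compl_H : (s.H)ᶜ.Finite := by
  rw [← Semigroup_range_gap]
  exact Set.finite_range _

theorem ncard_compl_H : (s.H)ᶜ.ncard = s.genus := by
  rw [← Semigroup_range_gap, ← Set.image_univ, Set.ncard_image_of_injective _
    s.Semigroup_gap_injective, Set.ncard_univ, Nat.card_eq_fintype_card, Fintype.card_sigma, genus]
  simp

end Fermat.Agent.S27.Shape
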