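import Fermat.Agent.S27.E.Defs
import Fermat.Agent.S27.E.Semigroup

/-!
# Block E, file Semigroup2: counting lemmas for the semigroup `H = {m t + b_j}` (pure `ℕ` arithmetic)
Use only: `zero_mem_H`, `add_mem_H`, `finite_compl_H`, `ncard_compl_H` of `Semigroup.lean`.
-/

set_option autoImplicit false

namespace Fermat.Agent.S27.Shape

variable (s : Shape)

open Classical in
/-- the gaps `< N`. -/
noncomputable def semigroup2Gaps (N : ℕ) : Finset ℕ := (Finset.range N).filter (· ∉ s.H)

open Classical in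
/-- the elements of `H` which are `< N`. -/
noncomputable def semigroup2Elts (N : ℕ) : Finset ℕ := (Finset.range N).filter (· ∈ s.H)

theorem semigroup2_card_add (N : ℕ) :
    (s.semigroup2Elts N).card + (s.semigroup2Gaps N).card = N := by
  classical
  unfold semigroup2Elts semigroup2Gaps
  rw [Finset.card_filter_add_card_filter_not, Finset.card_range]

theorem semigroup2_card_gaps_le (N : ℕ) : (s.semigroup2Gaps N).card ≤ s.genus := by
  classical
  rw [← s.ncard_compl_H, ← Set.ncard_coe_finset]
  refine Set.ncard_le_ncard ?_ s.finite_compl_H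
  intro n hn
  simp only [semigroup2Gaps, Finset.coe_filter, Finset.mem_range, Set.mem_ofPred_eq] at hn
  exact hn.2

/-- the key injection `h ↦ n - h`. -/
theorem semigroup2_key {Γ : Set ℕ} (hadd : ∀ a ∈ s.H, ∀ b ∈ Γ, a + b ∈ Γ) {n : ℕ} (hn : n ∉ Γ)
    (T : Finset ℕ) (hT : ∀ i, i ∈ s.H → i ∉ Γ → i ≤ n → i ∈ T) :
    n + 1 ≤ T.card + 2 * s.genus := by
  classical
  have h1 := s.semigroup2_card_add (n + 1)
  have h2 := s.semigroup2_card_gaps_le (n + 1)
  have h3 : (s.semigroup2Elts (n + 1)).card ≤ (T ∪ s.semigroup2Gaps (n + 1)).card := by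
    refine Finset.card_le_card_of_injOn (fun h => n - h) ?_ ?_
    · intro h hh
      simp only [semigroup2Elts, Finset.coe_filter, Finset.mem_range, Set.mem_ofPred_eq] at hh
      have hΓ : n - h ∉ Γ := by
        intro hc
        have := hadd h hh.2 _ hc
        rw [Nat.add_sub_cancel' (by omega)] at this
        exact hn this
      simp only [Finset.coe_union, Set.mem_union, Finset.mem_coe]
      by_cases hH : n - h ∈ s.H
      · exact Or.inl (hT _ hH hΓ (Nat.sub_le _ _))
      · right
        simp only [semigroup2Gaps, Finset.mem_filter, Finset.mem_range]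
        exact ⟨by omega, hH⟩
    · intro h hh h' hh' he
      simp only [semigroup2Elts, Finset.coe_filter, Finset.mem_range, Set.mem_ofPred_eq] at hh hh'
      simp only at he
      omega
  have h4 := Finset.card_union_le T (s.semigroup2Gaps (n + 1))
  omega

/-- If `Γ` is an "ideal" of `H` with finite complement in `H` then every `n ∈ H \ Γ` satisfies
`n + 1 ≤ #(H \ Γ) + 2 g`.  Proof: `h ↦ n - h` maps `{h ∈ H | h ≤ n}` (which has at least
`n + 1 - g` elements) injectively into `[0,n] \ Γ ⊆ (H \ Γ) ∪ Hᶜ`. More precisely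
`#{h ∈ H, h ≤ n} = n + 1 - #(gaps ≤ n)` and the target has `≤ #(H \ Γ) + #(gaps ≤ n)` elements. -/
theorem lt_of_mem_H_diff {Γ : Set ℕ} (hadd : ∀ a ∈ s.H, ∀ b ∈ Γ, a + b ∈ Γ)
    (hfin : (s.H \ Γ).Finite) {n : ℕ} (hn : n ∈ s.H \ Γ) :
    n < (s.H \ Γ).ncard + 2 * s.genus := by
  have := s.semigroup2_key hadd hn.2 hfin.toFinset
    (fun i hi hi' _ => hfin.mem_toFinset.2 ⟨hi, hi'⟩)
  rw [Set.ncard_eq_toFinset_card _ hfin]
  omega

/-- the conductor is `≤ 2 g`: if `n ∉ H` then `h ↦ n - h` maps `{h ∈ H | h ≤ n}` into the gaps. -/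
theorem mem_H_of_le {n : ℕ} (hn : 2 * s.genus ≤ n) : n ∈ s.H := by
  by_contra h
  have := s.semigroup2_key (Γ := s.H) (fun a ha b hb => s.add_mem_H ha hb) h ∅
    (fun i hi hi' _ => absurd hi hi')
  simp at this
  omega

theorem semigroup2_card_gaps {N : ℕ} (hN : 2 * s.genus ≤ N) :
    (s.semigroup2Gaps N).card = s.genus := by
  classical
  rw [← s.ncard_compl_H, ← Set.ncard_coe_finset]
  congr 1
  ext n
  simp only [semigroup2Gaps, Finset.coe_filter, Finset.mem_range, Set.mem_ofPred_eq,
    Set.mem_compl_iff]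
  constructor
  · exact fun h => h.2
  · intro h
    refine ⟨?_, h⟩
    by_contra hc
    exact h (s.mem_H_of_le (by omega))

theorem semigroup2_diff_subset (a : ℕ) :
    s.H \ ((fun h => a + h) '' s.H) ⊆ (Finset.range (a + 2 * s.genus) : Set ℕ) := by
  intro n hn
  simp only [Finset.coe_range, Set.mem_Iio]
  by_contra hc
  refine hn.2 ⟨n - a, s.mem_H_of_le (by omega), ?_⟩
  simp only
  omega

theorem finite_H_diff_add (a : ℕ) : (s.H \ ((fun h => a + h) '' s.H)).Finite :=
  (Finset.finite_toSet _).subset (s.semigroup2_diff_subset a)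

/-- `#(H \ (a + H)) = a` for `a ∈ H` (Apéry set: one element, the smallest element of `H`, in each
residue class mod `a`; or count in a large interval `[0, M)`: `(M - g) - (M - a - g)`). -/
theorem ncard_H_diff_add {a : ℕ} (ha : a ∈ s.H) :
    (s.H \ ((fun h => a + h) '' s.H)).ncard = a := by
  classical
  have hset : s.H \ ((fun h => a + h) '' s.H) =
      ((s.semigroup2Elts (a + 2 * s.genus) \
        (s.semigroup2Elts (2 * s.genus)).image (fun h => a + h) : Finset ℕ) : Set ℕ) := by
    ext n
    simp only [semigroup2Elts, Finset.coe_sdiff, Finset.coe_filter, Finset.mem_range,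
      Finset.coe_image, Set.mem_sdiff, Set.mem_ofPred_eq, Set.mem_image]
    constructor
    · intro hn
      have h1 := s.semigroup2_diff_subset a (by simpa using hn)
      simp only [Finset.coe_range, Set.mem_Iio] at h1
      refine ⟨⟨h1, hn.1⟩, ?_⟩
      rintro ⟨h, hh, rfl⟩
      exact hn.2 ⟨h, hh.2, rfl⟩
    · rintro ⟨⟨h1, h2⟩, h3⟩
      refine ⟨h2, ?_⟩
      rintro ⟨h, hh, rfl⟩
      exact h3 ⟨h, ⟨by omega, hh⟩, rfl⟩
  rw [hset, Set.ncard_coe_finset, Finset.card_sdiff_of_subset, Finset.card_image_of_injective _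
    (add_right_injective a)]
  · have h1 := s.semigroup2_card_add (a + 2 * s.genus)
    have h2 := s.semigroup2_card_add (2 * s.genus)
    have h3 := s.semigroup2_card_gaps (N := a + 2 * s.genus) (by omega)
    have h4 := s.semigroup2_card_gaps (N := 2 * s.genus) le_rfl
    omega
  · intro n hn
    simp only [semigroup2Elts, Finset.mem_image, Finset.mem_filter, Finset.mem_range] at hn ⊢
    obtain ⟨h, hh, rfl⟩ := hn
    exact ⟨by omega, s.add_mem_H ha hh.2⟩

end Fermat.Agent.S27.Shape
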