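import Fermat.Agent.S27.E.Defs
import Fermat.Agent.S27.E.Semigroup

/-!
# Block E, file LemmaW: the weight function of an `AlgModel` and "Lemma W"
(dimension of a quotient = number of missing weights). Only linear algebra: the basis
`A.basis` indexed by `Fin s.m × ℕ` and the injective weight `s.wt`; no multiplication.
-/

set_option autoImplicit false

namespace Fermat.Agent.S27.E.AlgModel

universe u v

variable {s : Shape} {k : Type u} [Field k] {R : Type v} [CommRing R] [Algebra k R]
  (A : AlgModel s k R)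

/-- all monomials of `f` have weight `< w`. -/
def WtLT (w : ℕ) (f : R) : Prop := ∀ jt, A.basis.repr f jt ≠ 0 → s.wt jt < w

@[simp] theorem rho_zero : A.rho 0 = 0 := by
  simp [rho]

theorem rho_basis (jt : Fin s.m × ℕ) : A.rho (A.basis jt) = s.wt jt := by
  unfold rho
  rw [Module.Basis.repr_self, Finsupp.support_single_ne_zero _ one_ne_zero, Finset.sup_singleton]

theorem rho_le_iff {f : R} {w : ℕ} : A.rho f ≤ w ↔ ∀ jt, A.basis.repr f jt ≠ 0 → s.wt jt ≤ w := by
  unfold rho
  rw [Finset.sup_le_iff]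
  simp only [Finsupp.mem_support_iff]

/-- the leading monomial -/
theorem exists_repr_ne_zero {f : R} (hf : f ≠ 0) :
    ∃ jt, A.basis.repr f jt ≠ 0 ∧ s.wt jt = A.rho f := by
  have hne : (A.basis.repr f).support.Nonempty := by
    rw [Finsupp.support_nonempty_iff]
    simpa using hf
  obtain ⟨jt, hjt, h⟩ := Finset.exists_mem_eq_sup _ hne s.wt
  exact ⟨jt, Finsupp.mem_support_iff.1 hjt, h.symm⟩

theorem rho_mem_H {f : R} (hf : f ≠ 0) : A.rho f ∈ s.H := by
  obtain ⟨jt, -, h⟩ := A.exists_repr_ne_zero hf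
  exact ⟨jt, h⟩

theorem rho_smul {a : k} (ha : a ≠ 0) (f : R) : A.rho (a • f) = A.rho f := by
  unfold rho
  rw [map_smul, Finsupp.support_smul_eq ha]

theorem rho_neg (f : R) : A.rho (-f) = A.rho f := by
  unfold rho
  rw [map_neg, Finsupp.support_neg]

theorem rho_add_le (f g : R) : A.rho (f + g) ≤ max (A.rho f) (A.rho g) := by
  rw [rho_le_iff]
  intro jt h
  rw [map_add, Finsupp.add_apply] at h
  by_cases h1 : A.basis.repr f jt = 0
  · have h2 : A.basis.repr g jt ≠ 0 := by
      intro h2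
      exact h (by rw [h1, h2, add_zero])
    exact le_max_of_le_right (A.rho_le_iff.1 le_rfl jt h2)
  · exact le_max_of_le_left (A.rho_le_iff.1 le_rfl jt h1)

theorem rho_sub_le (f g : R) : A.rho (f - g) ≤ max (A.rho f) (A.rho g) := by
  rw [sub_eq_add_neg, ← A.rho_neg g]
  exact A.rho_add_le f (-g)

theorem rho_add_eq_of_lt {f g : R} (h : A.rho g < A.rho f) : A.rho (f + g) = A.rho f := by
  apply le_antisymm
  · exact (A.rho_add_le f g).trans (max_le le_rfl h.le)
  · have hf : f ≠ 0 := by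
      rintro rfl
      simp at h
    obtain ⟨jt, hjt, hw⟩ := A.exists_repr_ne_zero hf
    have hg : A.basis.repr g jt = 0 := by
      by_contra hg
      have := A.rho_le_iff.1 le_rfl jt hg
      omega
    rw [← hw]
    apply A.rho_le_iff.1 le_rfl jt
    rw [map_add, Finsupp.add_apply, hg, add_zero]
    exact hjt

theorem wtLT_iff {w : ℕ} {f : R} : A.WtLT w f ↔ f = 0 ∨ A.rho f < w := by
  constructor
  · intro h
    by_cases hf : f = 0
    · exact Or.inl hf
    · obtain ⟨jt, hjt, hw⟩ := A.exists_repr_ne_zero hf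
      exact Or.inr (hw ▸ h jt hjt)
  · rintro (rfl | h) jt hjt
    · simp at hjt
    · exact lt_of_le_of_lt (A.rho_le_iff.1 le_rfl jt hjt) h

theorem WtLT.mono {w w' : ℕ} {f : R} (h : A.WtLT w f) (hw : w ≤ w') : A.WtLT w' f := by
  intro jt hjt
  exact lt_of_lt_of_le (h jt hjt) hw

/-- **leading term lemma** (the leading monomials coincide because `s.wt` is injective). -/
theorem exists_rho_sub_lt {f g : R} (hf : f ≠ 0) (hg : g ≠ 0) (h : A.rho f = A.rho g) :
    ∃ a : k, a ≠ 0 ∧ (f - a • g = 0 ∨ A.rho (f - a • g) < A.rho f) := by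
  obtain ⟨jt, hjt, hw⟩ := A.exists_repr_ne_zero hf
  obtain ⟨jt', hjt', hw'⟩ := A.exists_repr_ne_zero hg
  have hjj : jt' = jt := s.wt_injective (by rw [hw, hw', h])
  subst hjj
  have ha : A.basis.repr f jt' / A.basis.repr g jt' ≠ 0 := div_ne_zero hjt hjt'
  refine ⟨A.basis.repr f jt' / A.basis.repr g jt', ha, ?_⟩
  by_cases h0 : f - (A.basis.repr f jt' / A.basis.repr g jt') • g = 0
  · exact Or.inl h0
  right
  have hz : A.basis.repr (f - (A.basis.repr f jt' / A.basis.repr g jt') • g) jt' = 0 := by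
    rw [map_sub, map_smul, Finsupp.sub_apply, Finsupp.smul_apply, smul_eq_mul,
      div_mul_cancel₀ _ hjt', sub_self]
  have hle : A.rho (f - (A.basis.repr f jt' / A.basis.repr g jt') • g) ≤ A.rho f := by
    refine (A.rho_sub_le _ _).trans (max_le le_rfl ?_)
    rw [A.rho_smul ha, h]
  refine lt_of_le_of_ne hle ?_
  intro heq
  obtain ⟨jt'', hjt'', hw''⟩ := A.exists_repr_ne_zero h0
  have : jt'' = jt' := s.wt_injective (by rw [hw'', heq, hw])
  subst this
  exact hjt'' hz

theorem Gam_subset_H (J : Submodule k R) : A.Gam J ⊆ s.H := by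
  rintro n ⟨f, -, hf, rfl⟩
  exact A.rho_mem_H hf

theorem Gam_mono {J J' : Submodule k R} (h : J ≤ J') : A.Gam J ⊆ A.Gam J' := by
  rintro n ⟨f, hfJ, hf, rfl⟩
  exact ⟨f, h hfJ, hf, rfl⟩

theorem repr_elt {N : ℕ} (p : Elt s N k) (jt : Fin s.m × ℕ) :
    A.basis.repr (A.elt p) jt = if h : jt.2 < N then p jt.1 ⟨jt.2, h⟩ else 0 := by
  classical
  obtain ⟨j0, t0⟩ := jt
  have h1 : A.elt p = ∑ j, ∑ t : Fin N, p j t • A.basis (j, (t : ℕ)) := by
    unfold elt
    refine Finset.sum_congr rfl fun j _ => Finset.sum_congr rfl fun t _ => ?_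
    rw [A.basis_apply]
  rw [h1]
  simp only [map_sum, map_smul, Module.Basis.repr_self, Finsupp.finset_sum_apply,
    Finsupp.smul_apply, Finsupp.single_apply, smul_eq_mul, Prod.mk.injEq]
  split_ifs with h
  · rw [Finset.sum_eq_single j0, Finset.sum_eq_single (⟨t0, h⟩ : Fin N)]
    · simp
    · intro t _ ht
      rw [if_neg, mul_zero]
      rintro ⟨-, h2⟩
      exact ht (Fin.ext h2)
    · intro h2
      exact absurd (Finset.mem_univ _) h2
    · intro j _ hj
      refine Finset.sum_eq_zero fun t _ => ?_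
      rw [if_neg, mul_zero]
      rintro ⟨h2, -⟩
      exact hj h2
    · intro h2
      exact absurd (Finset.mem_univ _) h2
  · refine Finset.sum_eq_zero fun j _ => Finset.sum_eq_zero fun t _ => ?_
    rw [if_neg, mul_zero]
    rintro ⟨-, h2⟩
    exact h (h2 ▸ t.2)

/-- elements of small weight are of the form `elt p`. (`m ≥ 1`, so `t ≤ m t + b_j < N`.) -/
theorem exists_elt_eq {N : ℕ} {f : R} (hf : A.WtLT N f) : ∃ p : Elt s N k, A.elt p = f := by
  refine ⟨fun j t => A.basis.repr f (j, (t : ℕ)), ?_⟩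
  apply A.basis.repr.injective
  ext jt
  rw [repr_elt]
  split_ifs with h
  · rfl
  · by_contra hne
    have h1 := hf jt (Ne.symm hne)
    unfold Shape.wt at h1
    have h2 : jt.2 ≤ s.m * jt.2 := Nat.le_mul_of_pos_left _ s.m_pos
    omega

theorem elt_eq_zero_iff {N : ℕ} (p : Elt s N k) : A.elt p = 0 ↔ p = 0 := by
  constructor
  · intro h
    funext j t
    have h1 := A.repr_elt p (j, (t : ℕ))
    rw [h, dif_pos t.2] at h1
    simpa using h1.symm
  · rintro rfl
    simp [elt]

theorem wtLE_iff {N w : ℕ} (p : Elt s N k) : WtLE s w p ↔ A.rho (A.elt p) ≤ w := by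
  rw [rho_le_iff]
  constructor
  · intro H jt hne
    rw [repr_elt] at hne
    split_ifs at hne with h
    · by_contra hlt
      exact hne (H jt.1 ⟨jt.2, h⟩ (not_le.1 hlt))
    · exact absurd rfl hne
  · intro H j t hlt
    by_contra hne
    have h1 := H (j, (t : ℕ)) (by rw [repr_elt, dif_pos t.2]; exact hne)
    unfold Shape.wt at h1
    simp only at h1
    omega

end Fermat.Agent.S27.E.AlgModel
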