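import Fermat.Agent.S27.E.Defs
import Fermat.Agent.S27.E.Semigroup
import Fermat.Agent.S27.E.LemmaW

/-!
# Block E, file LemmaW2: "Lemma W" (dimension of a quotient = number of missing weights).
Only linear algebra: the basis `A.basis` indexed by `Fin s.m × ℕ` and the injective weight `s.wt`.
-/

set_option autoImplicit false

namespace Fermat.Agent.S27.E.AlgModel

universe u v

variable {s : Shape} {k : Type u} [Field k] {R : Type v} [CommRing R] [Algebra k R]
  (A : AlgModel s k R)

theorem LemmaW2_exists_sub_mem_aux (J : Submodule k R) (w : ℕ) :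
    ∀ f : R, (f = 0 ∨ A.rho f < w) →
      ∃ f' : R, f - f' ∈ J ∧ ∀ jt, A.basis.repr f' jt ≠ 0 → s.wt jt ∉ A.Gam J := by
  induction w with
  | zero =>
    intro f hf
    have hf0 : f = 0 := by
      rcases hf with h | h
      · exact h
      · exact absurd h (Nat.not_lt_zero _)
    exact ⟨0, by simp [hf0], fun jt h => absurd (by simp) h⟩
  | succ w ih =>
    intro f hf
    by_cases hf0 : f = 0
    · exact ⟨0, by simp [hf0], fun jt h => absurd (by simp) h⟩
    have hfw : A.rho f < w + 1 := by
      rcases hf with h | h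
      · exact absurd h hf0
      · exact h
    obtain ⟨jt, hjt, hwt⟩ := A.exists_repr_ne_zero hf0
    by_cases hG : s.wt jt ∈ A.Gam J
    · obtain ⟨g, hgJ, hg0, hgr⟩ := hG
      obtain ⟨a, -, ha⟩ := A.exists_rho_sub_lt hf0 hg0 (hwt.symm.trans hgr.symm)
      obtain ⟨f', hf', hmon⟩ := ih (f - a • g) (by
        rcases ha with h | h
        · exact Or.inl h
        · exact Or.inr (by omega))
      refine ⟨f', ?_, hmon⟩
      have : f - f' = (f - a • g - f') + a • g := by abel
      rw [this]
      exact J.add_mem hf' (J.smul_mem a hgJ)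
    · have hb0 : A.basis jt ≠ 0 := A.basis.ne_zero jt
      obtain ⟨a, -, ha⟩ := A.exists_rho_sub_lt hf0 hb0 (hwt.symm.trans (A.rho_basis jt).symm)
      obtain ⟨f', hf', hmon⟩ := ih (f - a • A.basis jt) (by
        rcases ha with h | h
        · exact Or.inl h
        · exact Or.inr (by omega))
      refine ⟨f' + a • A.basis jt, ?_, ?_⟩
      · have : f - (f' + a • A.basis jt) = f - a • A.basis jt - f' := by abel
        rw [this]
        exact hf'
      · intro jt' hjt'
        by_cases h1 : A.basis.repr f' jt' = 0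
        · by_cases h2 : jt = jt'
          · rw [← h2]; exact hG
          · exfalso
            apply hjt'
            rw [map_add, map_smul, Module.Basis.repr_self, Finsupp.add_apply, Finsupp.smul_apply,
              Finsupp.single_apply, if_neg h2, h1]
            simp
        · exact hmon jt' h1

/-- **Lemma W, normal form**: every `f` is congruent mod `J` to an `f'` all of whose monomials have
weight outside `Gam J`.  Strong induction on `rho f`: let `jt` be the leading monomial of `f`, `a`
its coefficient. If `s.wt jt ∈ Gam J` subtract a multiple of an element of `J` of the same weight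
(`exists_rho_sub_lt`); otherwise subtract `a • basis jt` and add it to `f'`. -/
theorem exists_sub_mem (J : Submodule k R) (f : R) :
    ∃ f' : R, f - f' ∈ J ∧ ∀ jt, A.basis.repr f' jt ≠ 0 → s.wt jt ∉ A.Gam J :=
  A.LemmaW2_exists_sub_mem_aux J (A.rho f + 1) f (Or.inr (Nat.lt_succ_self _))

/-- a non zero element all of whose monomials have weight outside `Gam J` is not in `J`. -/
theorem not_mem_of_forall_not_mem_Gam (J : Submodule k R) {f : R} (hf : f ≠ 0)
    (h : ∀ jt, A.basis.repr f jt ≠ 0 → s.wt jt ∉ A.Gam J) : f ∉ J := by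
  intro hfJ
  obtain ⟨jt, hjt, hwt⟩ := A.exists_repr_ne_zero hf
  exact h jt hjt ⟨f, hfJ, hf, hwt.symm⟩

/-- the monomials of weight outside `Gam J`. -/
def LemmaW2_T (J : Submodule k R) : Set (Fin s.m × ℕ) := {jt | s.wt jt ∉ A.Gam J}

/-- their span. -/
def LemmaW2_W (J : Submodule k R) : Submodule k R :=
  Submodule.span k (A.basis '' A.LemmaW2_T J)

theorem LemmaW2_mem_W_iff (J : Submodule k R) (f : R) :
    f ∈ A.LemmaW2_W J ↔ ∀ jt, A.basis.repr f jt ≠ 0 → s.wt jt ∉ A.Gam J := by
  rw [LemmaW2_W, Module.Basis.mem_span_image]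
  constructor
  · intro h jt hjt
    exact h (Finsupp.mem_support_iff.mpr hjt)
  · intro h jt hjt
    exact h jt (Finsupp.mem_support_iff.mp hjt)

theorem LemmaW2_isCompl (J : Submodule k R) : IsCompl J (A.LemmaW2_W J) := by
  constructor
  · rw [Submodule.disjoint_def]
    intro f hfJ hfW
    by_contra hf
    exact A.not_mem_of_forall_not_mem_Gam J hf ((A.LemmaW2_mem_W_iff J f).mp hfW) hfJ
  · rw [codisjoint_iff, eq_top_iff]
    intro f _
    obtain ⟨f', hf', hmon⟩ := A.exists_sub_mem J f
    have : f = (f - f') + f' := by abel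
    rw [this]
    exact Submodule.add_mem_sup hf' ((A.LemmaW2_mem_W_iff J f').mpr hmon)

theorem LemmaW2_image_T (J : Submodule k R) : s.wt '' A.LemmaW2_T J = s.H \ A.Gam J := by
  ext n
  constructor
  · rintro ⟨jt, hjt, rfl⟩
    exact ⟨⟨jt, rfl⟩, hjt⟩
  · rintro ⟨⟨jt, rfl⟩, hn⟩
    exact ⟨jt, hn, rfl⟩

theorem LemmaW2_finite_T (J : Submodule k R) (hfin : (s.H \ A.Gam J).Finite) :
    (A.LemmaW2_T J).Finite := by
  rw [← A.LemmaW2_image_T J] at hfin
  exact hfin.of_finite_image s.wt_injective.injOn

theorem LemmaW2_finrank_W (J : Submodule k R) (hfin : (s.H \ A.Gam J).Finite) :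
    Module.finrank k (A.LemmaW2_W J) = (s.H \ A.Gam J).ncard := by
  have hT := A.LemmaW2_finite_T J hfin
  have : Fintype (A.LemmaW2_T J) := hT.fintype
  have hli : LinearIndependent k (fun jt : A.LemmaW2_T J => A.basis jt) :=
    A.basis.linearIndependent.comp _ Subtype.val_injective
  have h1 := finrank_span_eq_card hli
  have h2 : Set.range (fun jt : A.LemmaW2_T J => A.basis jt) = A.basis '' A.LemmaW2_T J := by
    rw [Set.image_eq_range]
  rw [h2] at h1
  rw [LemmaW2_W, h1, ← A.LemmaW2_image_T J, Set.ncard_image_of_injective _ s.wt_injective,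
    ← Nat.card_coe_set_eq, Nat.card_eq_fintype_card]

/-- **Lemma W, dimension**: the classes of the monomials of weight in `H \ Gam J` form a basis of
`R ⧸ J`. -/
theorem finite_quotient (J : Submodule k R) (hfin : (s.H \ A.Gam J).Finite) :
    Module.Finite k (R ⧸ J) := by
  have : Module.Finite k (A.LemmaW2_W J) :=
    Module.Finite.span_of_finite k ((A.LemmaW2_finite_T J hfin).image _)
  exact Module.Finite.equiv (Submodule.quotientEquivOfIsCompl J _ (A.LemmaW2_isCompl J)).symm

theorem finrank_quotient (J : Submodule k R) (hfin : (s.H \ A.Gam J).Finite) :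
    Module.finrank k (R ⧸ J) = (s.H \ A.Gam J).ncard := by
  rw [(Submodule.quotientEquivOfIsCompl J _ (A.LemmaW2_isCompl J)).finrank_eq,
    A.LemmaW2_finrank_W J hfin]

include A in
/-- `R` is infinite dimensional. (`A` is an explicit argument: `A.not_finite`.) -/
theorem not_finite : ¬ Module.Finite k R := by
  intro h
  have h1 : Finite (Fin s.m × ℕ) := Module.Finite.finite_basis A.basis
  have : Nonempty (Fin s.m) := ⟨s.zero⟩
  exact _root_.not_finite (Fin s.m × ℕ)

end Fermat.Agent.S27.E.AlgModel
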