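import Fermat.Agent.S27.E.Defs
import Fermat.Agent.S27.E.Semigroup
import Fermat.Agent.S27.E.Semigroup2
import Fermat.Agent.S27.E.LemmaW
import Fermat.Agent.S27.E.LemmaW2

/-!
# Block E, file Codim: codimension of ideals of an `AlgModel` with multiplicative weight
(no Dedekind hypothesis here).
-/

set_option autoImplicit false

namespace Fermat.Agent.S27.E.AlgModel

universe u v

variable {s : Shape} {k : Type u} [Field k] {R : Type v} [CommRing R] [Algebra k R]
  (A : AlgModel s k R)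

theorem Codim_basis_zero : A.basis (s.zero, 0) = 1 := by
  rw [A.basis_apply]
  simp [A.y_zero]

theorem Codim_wt_zero : s.wt (s.zero, 0) = 0 := by
  simp [Shape.wt, s.b_zero s.zero rfl]

theorem Codim_rho_one : A.rho 1 = 0 := by
  rw [← A.Codim_basis_zero, A.rho_basis, Codim_wt_zero]

/-- an element of weight `0` is a constant. -/
theorem Codim_eq_smul_one {f : R} (hf : f ≠ 0) (h : A.rho f = 0) :
    ∃ a : k, a ≠ 0 ∧ f = a • (1 : R) := by
  have h1 : (1 : R) ≠ 0 := by
    intro h1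
    apply hf
    rw [← mul_one f, h1, mul_zero]
  obtain ⟨a, ha, h2⟩ := A.exists_rho_sub_lt hf h1 (by rw [h, A.Codim_rho_one])
  refine ⟨a, ha, ?_⟩
  rcases h2 with h2 | h2
  · exact sub_eq_zero.mp h2
  · omega

/-- `RhoMul` implies that `R` has no zero divisors (`rho (f g) = rho f + rho g`; if `f g = 0` then
`rho f = rho g = 0` so `f, g` are non zero multiples of `basis (0,0) = 1`). -/
theorem mul_ne_zero_of_rhoMul (hA : A.RhoMul) {f g : R} (hf : f ≠ 0) (hg : g ≠ 0) : f * g ≠ 0 := by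
  intro h
  have h1 := hA f g hf hg
  rw [h, A.rho_zero] at h1
  obtain ⟨a, ha, rfl⟩ := A.Codim_eq_smul_one hf (by omega)
  rw [smul_mul_assoc, one_mul] at h
  rcases smul_eq_zero.mp h with h | h
  · exact ha h
  · exact hg h

/-- `H + Gam I ⊆ Gam I` (multiply by a monomial). -/
theorem add_mem_Gam (hA : A.RhoMul) (I : Ideal R) {a b : ℕ} (ha : a ∈ s.H)
    (hb : b ∈ A.Gam (I.restrictScalars k)) : a + b ∈ A.Gam (I.restrictScalars k) := by
  obtain ⟨jt, rfl⟩ := ha
  obtain ⟨f, hfI, hf, rfl⟩ := hb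
  have hb0 : A.basis jt ≠ 0 := A.basis.ne_zero jt
  refine ⟨A.basis jt * f, ?_, A.mul_ne_zero_of_rhoMul hA hb0 hf, ?_⟩
  · exact I.mul_mem_left _ hfI
  · rw [hA _ _ hb0 hf, A.rho_basis]

theorem Gam_span_singleton (hA : A.RhoMul) {f : R} (hf : f ≠ 0) :
    A.Gam ((Ideal.span {f}).restrictScalars k) = (fun h => A.rho f + h) '' s.H := by
  ext n
  constructor
  · rintro ⟨g, hg, hg0, rfl⟩
    obtain ⟨c, rfl⟩ := Ideal.mem_span_singleton'.mp hg
    have hc : c ≠ 0 := by
      rintro rfl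
      exact hg0 (zero_mul _)
    exact ⟨A.rho c, A.rho_mem_H hc, by simp only; rw [hA _ _ hc hf, add_comm]⟩
  · rintro ⟨h, hh, rfl⟩
    simp only
    rw [add_comm]
    refine A.add_mem_Gam hA _ hh ⟨f, ?_, hf, rfl⟩
    exact Ideal.mem_span_singleton_self f

/-- `I ∋ f ≠ 0`, so `H \ Gam I ⊆ H \ (rho f + H)` which is finite. -/
theorem finite_H_diff_Gam (hA : A.RhoMul) {I : Ideal R} (hI : I ≠ ⊥) :
    (s.H \ A.Gam (I.restrictScalars k)).Finite := by
  obtain ⟨f, hfI, hf⟩ := Submodule.exists_mem_ne_zero_of_ne_bot hI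
  refine (s.finite_H_diff_add (A.rho f)).subset ?_
  rw [← A.Gam_span_singleton hA hf]
  apply Set.sdiff_subset_sdiff_right
  apply A.Gam_mono
  intro g hg
  exact (Ideal.span_singleton_le_iff_mem I).mpr hfI hg

/-- use `Submodule.Quotient.restrictScalarsEquiv` to pass from `R ⧸ I.restrictScalars k`
to `R ⧸ I`. -/
theorem finite_quotient_ideal (hA : A.RhoMul) {I : Ideal R} (hI : I ≠ ⊥) :
    Module.Finite k (R ⧸ I) := by
  have := A.finite_quotient (I.restrictScalars k) (A.finite_H_diff_Gam hA hI)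
  exact Module.Finite.equiv (Submodule.Quotient.restrictScalarsEquiv k I)

theorem codim_eq_ncard (hA : A.RhoMul) {I : Ideal R} (hI : I ≠ ⊥) :
    A.codim I = (s.H \ A.Gam (I.restrictScalars k)).ncard := by
  rw [← A.finrank_quotient (I.restrictScalars k) (A.finite_H_diff_Gam hA hI)]
  exact (Submodule.Quotient.restrictScalarsEquiv k I).finrank_eq.symm

/-- `codim (f) = rho f` (`Gam_span_singleton` + `Shape.ncard_H_diff_add`). -/
theorem codim_span_singleton (hA : A.RhoMul) {f : R} (hf : f ≠ 0) :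
    A.codim (Ideal.span {f}) = A.rho f := by
  have hI : Ideal.span {f} ≠ ⊥ := by
    rw [Ne, Ideal.span_singleton_eq_bot]
    exact hf
  rw [A.codim_eq_ncard hA hI, A.Gam_span_singleton hA hf, s.ncard_H_diff_add (A.rho_mem_H hf)]

/-- every class mod `I` has a representative of weight `< codim I + 2 g`
(`exists_sub_mem` + `Shape.lt_of_mem_H_diff`). -/
theorem exists_sub_mem_ideal (hA : A.RhoMul) {I : Ideal R} (hI : I ≠ ⊥) (f : R) :
    ∃ f' : R, f - f' ∈ I ∧ A.WtLT (A.codim I + 2 * s.genus) f' := by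
  obtain ⟨f', h1, h2⟩ := A.exists_sub_mem (I.restrictScalars k) f
  refine ⟨f', h1, ?_⟩
  intro jt hjt
  rw [A.codim_eq_ncard hA hI]
  exact s.lt_of_mem_H_diff (fun a ha b hb => A.add_mem_Gam hA I ha hb) (A.finite_H_diff_Gam hA hI)
    ⟨⟨jt, rfl⟩, h2 jt hjt⟩

/-- `codim I + 2 g ∈ H` (`Shape.mem_H_of_le`) and it is not in `H \ Gam I`
(`Shape.lt_of_mem_H_diff`). -/
theorem exists_mem_rho_eq (hA : A.RhoMul) {I : Ideal R} (hI : I ≠ ⊥) :
    ∃ f ∈ I, f ≠ 0 ∧ A.rho f = A.codim I + 2 * s.genus := by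
  have hH : A.codim I + 2 * s.genus ∈ s.H := s.mem_H_of_le (by omega)
  by_contra hcon
  have hG : A.codim I + 2 * s.genus ∉ A.Gam (I.restrictScalars k) := by
    rintro ⟨f, hf, hf0, hr⟩
    exact hcon ⟨f, hf, hf0, hr⟩
  have := s.lt_of_mem_H_diff (fun a ha b hb => A.add_mem_Gam hA I ha hb)
    (A.finite_H_diff_Gam hA hI) ⟨hH, hG⟩
  rw [← A.codim_eq_ncard hA hI] at this
  omega

theorem codim_le_of_le (hA : A.RhoMul) {I J : Ideal R} (hI : I ≠ ⊥) (h : I ≤ J) :
    A.codim J ≤ A.codim I := by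
  have hJ : J ≠ ⊥ := by
    rintro rfl
    exact hI (le_bot_iff.mp h)
  rw [A.codim_eq_ncard hA hI, A.codim_eq_ncard hA hJ]
  apply Set.ncard_le_ncard _ (A.finite_H_diff_Gam hA hI)
  apply Set.sdiff_subset_sdiff_right
  apply A.Gam_mono
  exact h

theorem eq_of_le_of_codim_le (hA : A.RhoMul) {I J : Ideal R} (hI : I ≠ ⊥) (h : I ≤ J)
    (hc : A.codim I ≤ A.codim J) : I = J := by
  have hJ : J ≠ ⊥ := by
    rintro rfl
    exact hI (le_bot_iff.mp h)
  refine le_antisymm h ?_
  intro f hf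
  by_contra hfI
  obtain ⟨f', h1, h2⟩ := A.exists_sub_mem (I.restrictScalars k) f
  have h1' : f - f' ∈ I := h1
  have hf'0 : f' ≠ 0 := by
    rintro rfl
    rw [sub_zero] at h1'
    exact hfI h1'
  have hf'J : f' ∈ J := by
    have := J.sub_mem hf (h h1')
    rwa [sub_sub_cancel] at this
  obtain ⟨jt, hjt, hw⟩ := A.exists_repr_ne_zero hf'0
  have hlt : (s.H \ A.Gam (J.restrictScalars k)).ncard < (s.H \ A.Gam (I.restrictScalars k)).ncard := by
    apply Set.ncard_lt_ncard _ (A.finite_H_diff_Gam hA hI)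
    refine ⟨?_, ?_⟩
    · apply Set.sdiff_subset_sdiff_right
      apply A.Gam_mono
      exact h
    · intro hsub
      have hmem : s.wt jt ∈ s.H \ A.Gam (I.restrictScalars k) := ⟨⟨jt, rfl⟩, h2 jt hjt⟩
      exact (hsub hmem).2 ⟨f', hf'J, hf'0, hw.symm⟩
  rw [← A.codim_eq_ncard hA hI, ← A.codim_eq_ncard hA hJ] at hlt
  omega

@[simp] theorem codim_top : A.codim (⊤ : Ideal R) = 0 := by
  unfold codim
  have : Subsingleton (R ⧸ (⊤ : Ideal R)) := Ideal.Quotient.subsingleton_iff.mpr rfl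
  exact Module.finrank_zero_of_subsingleton

theorem eq_top_of_codim_eq_zero (hA : A.RhoMul) {I : Ideal R} (hI : I ≠ ⊥) (h : A.codim I = 0) :
    I = ⊤ :=
  A.eq_of_le_of_codim_le hA hI le_top (by rw [h]; exact Nat.zero_le _)

include A in
/-- `R` is infinite dimensional (local copy, with `A` explicit). -/
theorem Codim_not_finite : ¬ Module.Finite k R := by
  intro h
  have h1 : Finite (Fin s.m × ℕ) := Module.Finite.finite_basis A.basis
  have : Nonempty (Fin s.m) := ⟨s.zero⟩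
  exact _root_.not_finite (Fin s.m × ℕ)

include A in
/-- an ideal with finite dimensional quotient is non zero (`not_finite`). -/
theorem ne_bot_of_finite {I : Ideal R} (h : Module.Finite k (R ⧸ I)) : I ≠ ⊥ := by
  intro hI
  apply A.Codim_not_finite
  exact Module.Finite.equiv ((Submodule.quotEquivOfEqBot I hI).restrictScalars k)

end Fermat.Agent.S27.E.AlgModel
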