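import Fermat.Agent.S27.E.Defs
import Fermat.Agent.S27.E.Codim

/-!
# Block E, file CodimMul: `codim (I J) = codim I + codim J` in a Dedekind domain
-/

set_option autoImplicit false

namespace Fermat.Agent.S27.E

universe u v

/-- Generic: `R` a Dedekind domain and a `k`-algebra all of whose non zero ideals have finite
codimension.  Proof: `IsDedekindDomain.exists_sup_span_eq` (or similar) gives `a` with
`I * J ⊔ span {a} = I`.  The `k`-linear map `R → I ⧸ I J`, `r ↦ r a` is onto, with kernel `J`: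
`span {a} = I * C` (`Ideal.dvd_iff_le`) with `C ⊔ J = ⊤` (cancel `I` in `I J ⊔ I C = I`), and
`r a ∈ I J → span {r} * C ≤ J → r ∈ J`.  So `dim I / I J = dim R / J`, and
`dim R / I J = dim R / I + dim I / I J`.
(Alternative: mimic Mathlib's `cardQuot_mul`: CRT for coprime ideals + prime powers.) -/
theorem finrank_quotient_mul {k : Type u} [Field k] {R : Type v} [CommRing R] [IsDedekindDomain R]
    [Algebra k R] (hfin : ∀ I : Ideal R, I ≠ ⊥ → Module.Finite k (R ⧸ I)) {I J : Ideal R}
    (hI : I ≠ ⊥) (hJ : J ≠ ⊥) :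
    Module.finrank k (R ⧸ (I * J)) = Module.finrank k (R ⧸ I) + Module.finrank k (R ⧸ J) := by
  classical
  have hIJ : I * J ≠ ⊥ := mul_ne_zero hI hJ
  have := hfin (I * J) hIJ
  have := hfin I hI
  have := hfin J hJ
  obtain ⟨a, ha⟩ : ∃ a, I * J ⊔ Ideal.span {a} = I :=
    IsDedekindDomain.exists_sup_span_eq Ideal.mul_le_left hIJ
  have haI : a ∈ I := by
    rw [← ha]; exact Ideal.mem_sup_right (Ideal.mem_span_singleton_self a)
  -- span {a} = I * C
  obtain ⟨C, hC⟩ : I ∣ Ideal.span {a} := Ideal.dvd_iff_le.mpr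
    ((Ideal.span_singleton_le_iff_mem I).mpr haI)
  have hCJ : J ⊔ C = ⊤ := by
    have h1 : I * (J ⊔ C) = I * ⊤ := by
      rw [Ideal.mul_sup, ← hC, ha, Ideal.mul_top]
    exact mul_left_cancel₀ hI h1
  let g : (R ⧸ (I * J)) →ₗ[k] (R ⧸ I) :=
    (Ideal.Quotient.factorₐ k (Ideal.mul_le_left : I * J ≤ I)).toLinearMap
  let f : R →ₗ[k] (R ⧸ (I * J)) :=
    ((Ideal.Quotient.mkₐ k (I * J)).toLinearMap).comp (LinearMap.mulRight k a)
  have hf : ∀ r, f r = Ideal.Quotient.mk (I * J) (r * a) := fun r => rfl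
  have hg : ∀ r, g (Ideal.Quotient.mk (I * J) r) = Ideal.Quotient.mk I r := fun r => rfl
  have hker : LinearMap.ker f = J.restrictScalars k := by
    ext r
    simp only [LinearMap.mem_ker, hf, Ideal.Quotient.eq_zero_iff_mem, Submodule.restrictScalars_mem]
    constructor
    · intro h
      -- span{r} * span{a} ≤ I*J → span {r} * C ≤ J
      have h1 : Ideal.span {r} * (I * C) ≤ I * J := by
        rw [← hC, Ideal.span_singleton_mul_span_singleton, Ideal.span_singleton_le_iff_mem]
        exact h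
      have h2 : I * (Ideal.span {r} * C) ≤ I * J := by
        rwa [mul_left_comm] at h1
      have h3 : Ideal.span {r} * C ≤ J := by
        rw [← Ideal.dvd_iff_le] at h2 ⊢
        exact (mul_dvd_mul_iff_left hI).mp h2
      have h4 : Ideal.span {r} = Ideal.span {r} * J ⊔ Ideal.span {r} * C := by
        rw [← Ideal.mul_sup, hCJ, Ideal.mul_top]
      have h5 : Ideal.span {r} ≤ J := by
        rw [h4]; exact sup_le Ideal.mul_le_right h3
      exact (Ideal.span_singleton_le_iff_mem J).mp h5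
    · intro h
      rw [mul_comm r a]
      exact Ideal.mul_mem_mul haI h
  have hrange : LinearMap.range f = LinearMap.ker g := by
    ext z
    obtain ⟨z, rfl⟩ := Ideal.Quotient.mk_surjective z
    simp only [LinearMap.mem_range, LinearMap.mem_ker, hf, hg, Ideal.Quotient.eq_zero_iff_mem]
    constructor
    · rintro ⟨r, hr⟩
      have : r * a - z ∈ I * J := (Ideal.Quotient.eq).mp hr
      have h2 : r * a - z ∈ I := Ideal.mul_le_left this
      have h3 : r * a ∈ I := I.mul_mem_left r haI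
      simpa using I.sub_mem h3 h2
    · intro hz
      rw [← ha] at hz
      obtain ⟨x, hx, y, hy, rfl⟩ := Submodule.mem_sup.mp hz
      obtain ⟨r, rfl⟩ := Ideal.mem_span_singleton'.mp hy
      refine ⟨r, ?_⟩
      rw [Ideal.Quotient.eq]
      simpa using (I * J).neg_mem hx
  have hgs : LinearMap.range g = ⊤ := by
    rw [LinearMap.range_eq_top]
    intro z
    obtain ⟨z, rfl⟩ := Ideal.Quotient.mk_surjective z
    exact ⟨Ideal.Quotient.mk _ z, rfl⟩
  have h1 := LinearMap.finrank_range_add_finrank_ker g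
  rw [hgs, finrank_top, ← hrange] at h1
  have e1 : (R ⧸ LinearMap.ker f) ≃ₗ[k] LinearMap.range f := f.quotKerEquivRange
  have e2 : (R ⧸ J.restrictScalars k) ≃ₗ[k] (R ⧸ J) := Submodule.Quotient.restrictScalarsEquiv k J
  rw [← h1, ← e1.finrank_eq, hker, e2.finrank_eq]

namespace AlgModel

variable {s : Shape} {k : Type u} [Field k] {R : Type v} [CommRing R] [Algebra k R]
  [IsDedekindDomain R] (A : AlgModel s k R)

theorem codim_mul (hA : A.RhoMul) {I J : Ideal R} (hI : I ≠ ⊥) (hJ : J ≠ ⊥) :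
    A.codim (I * J) = A.codim I + A.codim J :=
  finrank_quotient_mul (fun _ h => A.finite_quotient_ideal hA h) hI hJ

theorem codim_pow (hA : A.RhoMul) {I : Ideal R} (hI : I ≠ ⊥) (n : ℕ) :
    A.codim (I ^ n) = n * A.codim I := by
  induction n with
  | zero => simp [Ideal.one_eq_top]
  | succ n ih =>
    rw [pow_succ, A.codim_mul hA (pow_ne_zero n hI) hI, ih]
    ring

/-- `I ⊓ J ⊇ I J`. -/
theorem codim_inf_le (hA : A.RhoMul) {I J : Ideal R} (hI : I ≠ ⊥) (hJ : J ≠ ⊥) :
    A.codim (I ⊓ J) ≤ A.codim I + A.codim J := by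
  rw [← A.codim_mul hA hI hJ]
  exact A.codim_le_of_le hA (mul_ne_zero hI hJ) Ideal.mul_le_inf

/-- If `I J ≤ L` and `codim L = codim I + codim J` then `L = I J`. -/
theorem eq_mul_of_le_of_codim (hA : A.RhoMul) {I J L : Ideal R} (hI : I ≠ ⊥) (hJ : J ≠ ⊥)
    (h : I * J ≤ L) (hc : A.codim L = A.codim I + A.codim J) : L = I * J :=
  (A.eq_of_le_of_codim_le hA (mul_ne_zero hI hJ) h
    (by rw [hc, A.codim_mul hA hI hJ])).symm

theorem eq_pow_of_le_of_codim (hA : A.RhoMul) {I L : Ideal R} (hI : I ≠ ⊥) (n : ℕ)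
    (h : I ^ n ≤ L) (hc : A.codim L = n * A.codim I) : L = I ^ n :=
  (A.eq_of_le_of_codim_le hA (pow_ne_zero n hI) h
    (by rw [hc, A.codim_pow hA hI n])).symm

end AlgModel

end Fermat.Agent.S27.E
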