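import Fermat.Agent.S27.E.Defs
import Fermat.Agent.S27.E.LemmaW
import Fermat.Agent.S27.E.Codim

/-!
# Block E, file RepToIdeal: a cyclic representation `r` codes an ideal `A.idl r` of codimension `d`
-/

set_option autoImplicit false

namespace Fermat.Agent.S27.E.AlgModel

universe u v

variable {s : Shape} {k : Type u} [Field k] {R : Type v} [CommRing R] [Algebra k R]
  (A : AlgModel s k R) {d N : ℕ}

theorem actR_basis (r : Rep s k d) (jt : Fin s.m × ℕ) :
    A.actR r (A.basis jt) = r.X ^ jt.2 * r.Y jt.1 := by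
  unfold actR
  rw [Module.Basis.constr_basis]

theorem actR_mono (r : Rep s k d) (t : ℕ) (j : Fin s.m) :
    A.actR r (A.x ^ t * A.y j) = r.X ^ t * r.Y j := by
  have h := A.actR_basis r (j, t)
  rwa [A.basis_apply] at h

theorem act_eq (r : Rep s k d) (p : Elt s N k) : r.act p = A.actR r (A.elt p) := by
  unfold Rep.act elt
  simp only [map_sum, map_smul, actR_mono]

theorem actR_one {r : Rep s k d} (hr : r.IsRep A.c N) : A.actR r 1 = 1 := by
  have h := A.actR_mono r 0 s.zero
  rwa [pow_zero, pow_zero, one_mul, one_mul, A.y_zero, hr.1] at h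

theorem RepToIdeal_actR_aeval (r : Rep s k d) (p : Polynomial k) (j : Fin s.m) :
    A.actR r (Polynomial.aeval A.x p * A.y j) = Polynomial.aeval r.X p * r.Y j := by
  induction p using Polynomial.induction_on' with
  | add p q hp hq => rw [map_add, map_add, add_mul, add_mul, map_add, hp, hq]
  | monomial n a =>
    rw [Polynomial.aeval_monomial, Polynomial.aeval_monomial, mul_assoc, mul_assoc,
      ← Algebra.smul_def, ← Algebra.smul_def, map_smul, actR_mono]

theorem RepToIdeal_evM_eq (c : Table s k) (X : Matrix (Fin d) (Fin d) k) (i j l : Fin s.m) :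
    c.evM X i j l = Polynomial.aeval X (c.poly i j l) := by
  unfold Table.evM Table.poly
  simp only [map_sum, map_mul, Polynomial.aeval_C, map_pow, Polynomial.aeval_X,
    Algebra.smul_def]

theorem RepToIdeal_actR_mul_basis {r : Rep s k d} (hr : r.IsRep A.c N) (t u : ℕ)
    (i j : Fin s.m) :
    A.actR r ((A.x ^ t * A.y i) * (A.x ^ u * A.y j))
      = (r.X ^ t * r.Y i) * (r.X ^ u * r.Y j) := by
  have h1 : (A.x ^ t * A.y i) * (A.x ^ u * A.y j)
      = ∑ l, Polynomial.aeval A.x (Polynomial.X ^ (t + u) * A.c.poly i j l) * A.y l := by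
    have : (A.x ^ t * A.y i) * (A.x ^ u * A.y j) = A.x ^ (t + u) * (A.y i * A.y j) := by
      rw [pow_add]; ring
    rw [this, A.mul_table, Finset.mul_sum]
    refine Finset.sum_congr rfl fun l _ => ?_
    rw [map_mul, map_pow, Polynomial.aeval_X, mul_assoc]
  have hc : Commute (r.X ^ u) (r.Y i) := Commute.pow_left (hr.2.1 i) u
  have h2 : (r.X ^ t * r.Y i) * (r.X ^ u * r.Y j) = r.X ^ (t + u) * (r.Y i * r.Y j) := by
    rw [pow_add, mul_assoc, ← mul_assoc (r.Y i), ← hc.eq, mul_assoc, mul_assoc]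
  rw [h1, h2, map_sum, hr.2.2.1, Finset.mul_sum]
  refine Finset.sum_congr rfl fun l _ => ?_
  rw [RepToIdeal_actR_aeval, map_mul, map_pow, Polynomial.aeval_X, RepToIdeal_evM_eq, mul_assoc]

/-- multiplicativity: check on monomials.
`x^t y_i x^u y_j = ∑_l ∑_τ c i j l τ x^(t+u+τ) y_l ↦ X^(t+u) ∑_l a_ijl(X) Y_l = X^(t+u) Y_i Y_j
 = X^t Y_i X^u Y_j`. -/
theorem actR_mul {r : Rep s k d} (hr : r.IsRep A.c N) (f g : R) :
    A.actR r (f * g) = A.actR r f * A.actR r g := by
  have h : (LinearMap.mul k R).compr₂ (A.actR r)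
      = (LinearMap.mul k (Matrix (Fin d) (Fin d) k)).compl₁₂ (A.actR r) (A.actR r) := by
    refine A.basis.ext fun a => A.basis.ext fun b => ?_
    simp only [LinearMap.compr₂_apply, LinearMap.mul_apply', LinearMap.compl₁₂_apply]
    rw [A.basis_apply, A.basis_apply, RepToIdeal_actR_mul_basis A hr, actR_mono, actR_mono]
  have := congrArg (fun B => B f g) h
  simpa only [LinearMap.compr₂_apply, LinearMap.mul_apply', LinearMap.compl₁₂_apply] using this

theorem mem_idl_iff {r : Rep s k d} (hr : r.IsRep A.c N) (f : R) :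
    f ∈ A.idl r ↔ (A.actR r f).mulVec r.e = 0 := by
  constructor
  · intro h
    have := h 1
    rwa [one_mul] at this
  · intro h g
    rw [A.actR_mul hr, ← Matrix.mulVec_mulVec, h, Matrix.mulVec_zero]

theorem mem_iff {r : Rep s k d} (hr : r.IsRep A.c N) (p : Elt s N k) :
    r.Mem p ↔ A.elt p ∈ A.idl r := by
  rw [A.mem_idl_iff hr, ← A.act_eq]
  rfl

/-- same as `mem_iff` with a different bound for the degree of `p`. -/
theorem mem_iff' {N' : ℕ} {r : Rep s k d} (hr : r.IsRep A.c N) (p : Elt s N' k) :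
    r.Mem p ↔ A.elt p ∈ A.idl r := by
  rw [A.mem_idl_iff hr, ← A.act_eq]
  rfl

/-- the orbit map `f ↦ (actR r f) e`. -/
noncomputable def RepToIdeal_orbit (r : Rep s k d) : R →ₗ[k] (Fin d → k) where
  toFun f := (A.actR r f).mulVec r.e
  map_add' f g := by rw [map_add, Matrix.add_mulVec]
  map_smul' a f := by rw [map_smul, Matrix.smul_mulVec, RingHom.id_apply]

theorem RepToIdeal_orbit_apply (r : Rep s k d) (f : R) :
    A.RepToIdeal_orbit r f = (A.actR r f).mulVec r.e := rfl

theorem RepToIdeal_orbit_surjective {r : Rep s k d} (hr : r.IsRep A.c N) :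
    Function.Surjective (A.RepToIdeal_orbit r) := by
  intro u
  obtain ⟨p, hp⟩ := hr.2.2.2 u
  exact ⟨A.elt p, by rw [RepToIdeal_orbit_apply, ← A.act_eq, hp]⟩

theorem RepToIdeal_ker_orbit {r : Rep s k d} (hr : r.IsRep A.c N) :
    LinearMap.ker (A.RepToIdeal_orbit r) = (A.idl r).restrictScalars k := by
  ext f
  rw [LinearMap.mem_ker, Submodule.restrictScalars_mem, A.mem_idl_iff hr, RepToIdeal_orbit_apply]

/-- `R ⧸ idl r ≃ k^d`. -/
noncomputable def RepToIdeal_equiv {r : Rep s k d} (hr : r.IsRep A.c N) :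
    (R ⧸ A.idl r) ≃ₗ[k] (Fin d → k) :=
  (Submodule.Quotient.restrictScalarsEquiv k (A.idl r)).symm.trans
    ((Submodule.quotEquivOfEq _ _ (A.RepToIdeal_ker_orbit hr).symm).trans
      (LinearMap.quotKerEquivOfSurjective _ (A.RepToIdeal_orbit_surjective hr)))

/-- `f ↦ (actR r f) e` induces `R ⧸ idl r ≃ k^d` (onto by cyclicity). -/
theorem finite_quotient_idl {r : Rep s k d} (hr : r.IsRep A.c N) :
    Module.Finite k (R ⧸ A.idl r) :=
  Module.Finite.equiv (A.RepToIdeal_equiv hr).symm

theorem codim_idl {r : Rep s k d} (hr : r.IsRep A.c N) : A.codim (A.idl r) = d := by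
  unfold codim
  rw [(A.RepToIdeal_equiv hr).finrank_eq, Module.finrank_fin_fun]

theorem idl_ne_bot {r : Rep s k d} (hr : r.IsRep A.c N) : A.idl r ≠ ⊥ := by
  intro hbot
  have h1 := A.finite_quotient_idl hr
  have hinj : Function.Injective (A.RepToIdeal_orbit r) := by
    rw [← LinearMap.ker_eq_bot, A.RepToIdeal_ker_orbit hr, hbot]
    rfl
  have h2 : Module.Finite k R := Module.Finite.of_injective _ hinj
  have h3 : Finite (Fin s.m × ℕ) := Module.Finite.finite_basis A.basis
  have : Nonempty (Fin s.m) := ⟨s.zero⟩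
  exact _root_.not_finite (Fin s.m × ℕ)

end Fermat.Agent.S27.E.AlgModel
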