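import Fermat.Agent.S27.E.Defs
import Fermat.Agent.S27.E.LemmaW
import Fermat.Agent.S27.E.Codim
import Fermat.Agent.S27.E.RepToIdeal

/-!
# Block E, file IdealToRep: every non zero ideal of codimension `d` is coded by a representation
-/

set_option autoImplicit false

namespace Fermat.Agent.S27.E.AlgModel

universe u v

variable {s : Shape} {k : Type u} [Field k] {R : Type v} [CommRing R] [Algebra k R]
  (A : AlgModel s k R) {d N : ℕ}

/-- Choose a basis `b` of `R ⧸ I` indexed by `Fin d` (`Module.finBasisOfFinrankEq`),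
`Ψ := (Algebra.leftMulMatrix b).comp (Ideal.Quotient.mkₐ k I) : R →ₐ[k] Matrix _ _ k`,
`X := Ψ x`, `Y j := Ψ (y j)`, `e := b.repr 1`.  Then `A.actR r = Ψ` (agree on the basis),
`(Ψ f).mulVec e = b.repr (mk f)`; the table relations hold because `Ψ` is an algebra hom
(`evM X i j l = Ψ (aeval x (poly i j l))`); cyclicity with degree `< N`: `exists_sub_mem_ideal` +
`exists_elt_eq`. -/
theorem exists_rep (hA : A.RhoMul) {I : Ideal R} (hI : I ≠ ⊥) (hd : A.codim I = d)
    (hN : d + 2 * s.genus ≤ N) : ∃ r : Rep s k d, r.IsRep A.c N ∧ A.idl r = I := by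
  classical
  have hfin : Module.Finite k (R ⧸ I) := A.finite_quotient_ideal hA hI
  let b : Module.Basis (Fin d) k (R ⧸ I) := Module.finBasisOfFinrankEq k (R ⧸ I) hd
  let Ψ : R →ₐ[k] Matrix (Fin d) (Fin d) k :=
    (Algebra.leftMulMatrix b).comp (Ideal.Quotient.mkₐ k I)
  let r : Rep s k d := { X := Ψ A.x, Y := fun j => Ψ (A.y j), e := b.repr 1 }
  have hact : ∀ f : R, A.actR r f = Ψ f := by
    have : A.actR r = Ψ.toLinearMap := by
      refine A.basis.ext fun jt => ?_
      rw [A.actR_basis, A.basis_apply, AlgHom.toLinearMap_apply, map_mul, map_pow]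
    intro f
    rw [this, AlgHom.toLinearMap_apply]
  have hvec : ∀ f : R, (Ψ f).mulVec r.e = b.repr (Ideal.Quotient.mk I f) := by
    intro f
    have := Algebra.leftMulMatrix_mulVec_repr b (Ideal.Quotient.mk I f) 1
    rw [mul_one] at this
    exact this
  have hev : ∀ i j l, A.c.evM r.X i j l = Ψ (Polynomial.aeval A.x (A.c.poly i j l)) := by
    intro i j l
    unfold Table.evM Table.poly
    simp only [map_sum, map_mul, map_pow, Polynomial.aeval_C, Polynomial.aeval_X,
      ← Algebra.smul_def, map_smul]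
    rfl
  have hr : r.IsRep A.c N := by
    refine ⟨?_, ?_, ?_, ?_⟩
    · show Ψ (A.y s.zero) = 1
      rw [A.y_zero, map_one]
    · intro j
      show Ψ A.x * Ψ (A.y j) = Ψ (A.y j) * Ψ A.x
      rw [← map_mul, ← map_mul, mul_comm]
    · intro i j
      show Ψ (A.y i) * Ψ (A.y j) = ∑ l, A.c.evM r.X i j l * Ψ (A.y l)
      rw [← map_mul, A.mul_table, map_sum]
      refine Finset.sum_congr rfl fun l _ => ?_
      rw [map_mul, hev]
    · intro u
      obtain ⟨f, hf⟩ := Ideal.Quotient.mk_surjective (b.equivFun.symm u)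
      obtain ⟨f', hf', hw⟩ := A.exists_sub_mem_ideal hA hI f
      rw [hd] at hw
      obtain ⟨p, hp⟩ := A.exists_elt_eq (hw.mono A hN)
      refine ⟨p, ?_⟩
      rw [A.act_eq, hp, hact, hvec]
      have h1 : Ideal.Quotient.mk I f' = Ideal.Quotient.mk I f :=
        ((Ideal.Quotient.mk_eq_mk_iff_sub_mem f f').mpr hf').symm
      rw [h1, hf]
      exact b.equivFun.apply_symm_apply u
  refine ⟨r, hr, ?_⟩
  ext f
  rw [A.mem_idl_iff hr, hact, hvec, ← Ideal.Quotient.eq_zero_iff_mem]
  constructor
  · intro h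
    have h3 : b.repr (Ideal.Quotient.mk I f) = 0 := by
      ext i
      exact congrFun h i
    simpa using h3
  · intro h
    rw [h, map_zero]
    rfl

end Fermat.Agent.S27.E.AlgModel
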