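import Fermat.Agent.S27.E.Defs
import Fermat.Agent.S27.E.LemmaW
import Fermat.Agent.S27.E.Codim
import Fermat.Agent.S27.E.CodimMul
import Fermat.Agent.S27.E.RepToIdeal

/-!
# Block E, file MulLE: the bounded tests `MulLE`, `PowLE`, `Princ` mean what they should
-/

set_option autoImplicit false

namespace Fermat.Agent.S27.E.AlgModel

universe u v

variable {s : Shape} {k : Type u} [Field k] {R : Type v} [CommRing R] [Algebra k R]
  [IsDedekindDomain R] (A : AlgModel s k R) {d d₁ d₂ d₃ N : ℕ}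

/-- Key reduction: for `f ∈ I` there is `f' ∈ I` of weight `< codim I + codim L + 2 g` with
`f - f' ∈ L` (apply `exists_sub_mem_ideal` to `I ⊓ L`, `codim_inf_le`). -/
theorem exists_small_rep (hA : A.RhoMul) {I L : Ideal R} (hI : I ≠ ⊥) (hL : L ≠ ⊥) {f : R}
    (hf : f ∈ I) :
    ∃ f' ∈ I, f - f' ∈ L ∧ A.WtLT (A.codim I + A.codim L + 2 * s.genus) f' := by
  have hIL : I ⊓ L ≠ ⊥ := by
    intro h
    have h1 : I * L ≤ I ⊓ L := Ideal.mul_le_inf
    rw [h, le_bot_iff] at h1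
    exact (mul_ne_zero hI hL) h1
  obtain ⟨f', h1, h2⟩ := A.exists_sub_mem_ideal hA hIL f
  refine ⟨f', ?_, h1.2, ?_⟩
  · have : f' = f - (f - f') := by ring
    rw [this]
    exact I.sub_mem hf h1.1
  · exact WtLT.mono A h2 (Nat.add_le_add_right (A.codim_inf_le hA hI hL) _)

/-- auxiliary: small representative as an `elt`. -/
private theorem MulLE_exists_elt (hA : A.RhoMul) {r₁ : Rep s k d₁} {r₃ : Rep s k d₃}
    (h₁ : r₁.IsRep A.c N) (h₃ : r₃.IsRep A.c N) (hN : d₁ + d₃ + 2 * s.genus ≤ N) {f : R}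
    (hf : f ∈ A.idl r₁) :
    ∃ p : Elt s N k, r₁.Mem p ∧ f - A.elt p ∈ A.idl r₃ := by
  obtain ⟨f', hf', hsub, hwt⟩ :=
    A.exists_small_rep hA (A.idl_ne_bot h₁) (A.idl_ne_bot h₃) hf
  rw [A.codim_idl h₁, A.codim_idl h₃] at hwt
  obtain ⟨p, hp⟩ := A.exists_elt_eq (WtLT.mono A hwt hN)
  refine ⟨p, ?_, ?_⟩
  · rw [A.mem_iff h₁, hp]
    exact hf'
  · rw [hp]
    exact hsub

/-- `MulLE ↔ I₁ I₂ ≤ I₃`.  `←` is clear (`mem_iff`, `act_eq`, `actR_mul`, `mem_idl_iff`).
`→`: `Ideal.mul_le`; given `f ∈ I₁`, `g ∈ I₂` take `f', g'` by `exists_small_rep` (with `L = I₃`),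
write them as `elt p`, `elt p'` (`exists_elt_eq`); `f g = f' g' + f' (g - g') + (f - f') g`. -/
theorem mulLE_iff (hA : A.RhoMul) {r₁ : Rep s k d₁} {r₂ : Rep s k d₂} {r₃ : Rep s k d₃}
    (h₁ : r₁.IsRep A.c N) (h₂ : r₂.IsRep A.c N) (h₃ : r₃.IsRep A.c N)
    (hN : max d₁ d₂ + d₃ + 2 * s.genus ≤ N) :
    Rep.MulLE N r₁ r₂ r₃ ↔ A.idl r₁ * A.idl r₂ ≤ A.idl r₃ := by
  constructor
  · intro h
    rw [Ideal.mul_le]
    intro f hf g hg
    have hN1 : d₁ + d₃ + 2 * s.genus ≤ N := by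
      have := le_max_left d₁ d₂
      omega
    have hN2 : d₂ + d₃ + 2 * s.genus ≤ N := by
      have := le_max_right d₁ d₂
      omega
    obtain ⟨p, hp, hpf⟩ := A.MulLE_exists_elt hA h₁ h₃ hN1 hf
    obtain ⟨p', hp', hpg⟩ := A.MulLE_exists_elt hA h₂ h₃ hN2 hg
    have h0 := h p p' hp hp'
    rw [A.act_eq, A.act_eq, ← A.actR_mul h₃, ← A.mem_idl_iff h₃] at h0
    have : f * g = A.elt p * A.elt p' + A.elt p * (g - A.elt p') + (f - A.elt p) * g := by ring
    rw [this]
    exact (A.idl r₃).add_mem ((A.idl r₃).add_mem h0 ((A.idl r₃).mul_mem_left _ hpg))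
      ((A.idl r₃).mul_mem_right _ hpf)
  · intro h p p' hp hp'
    rw [A.mem_iff h₁] at hp
    rw [A.mem_iff h₂] at hp'
    rw [A.act_eq, A.act_eq, ← A.actR_mul h₃, ← A.mem_idl_iff h₃]
    exact h (Ideal.mul_mem_mul hp hp')

omit [IsDedekindDomain R] in
/-- auxiliary: `I ^ n ≤ J` can be tested on products. -/
private theorem MulLE_pow_le {I : Ideal R} (n : ℕ) : ∀ J : Ideal R,
    (∀ f : Fin n → R, (∀ i, f i ∈ I) → ∏ i, f i ∈ J) → I ^ n ≤ J := by
  induction n with
  | zero =>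
    intro J h
    have h1 : (1 : R) ∈ J := by simpa using h (fun _ => 0) (fun i => i.elim0)
    rw [(Ideal.eq_top_iff_one J).2 h1]
    exact le_top
  | succ n ih =>
    intro J h
    rw [pow_succ', Ideal.mul_le]
    intro a ha b hb
    have key : I ^ n ≤ Submodule.comap (LinearMap.mulLeft R a) J := by
      apply ih
      intro f hf
      have := h (Fin.cons a f) (by
        intro i
        refine Fin.cases ?_ ?_ i
        · simpa using ha
        · intro j
          simpa using hf j)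
      rw [Fin.prod_univ_succ] at this
      simpa using this
    simpa using key hb

omit [IsDedekindDomain R] in
/-- auxiliary: the product of the matrices is the matrix of the product. -/
private theorem MulLE_prod_act {r₃ : Rep s k d₃} (h₃ : r₃.IsRep A.c N) (n : ℕ)
    (p : Fin n → Elt s N k) :
    (List.ofFn fun i => r₃.act (p i)).prod = A.actR r₃ (∏ i, A.elt (p i)) := by
  induction n with
  | zero => simp [A.actR_one h₃]
  | succ n ih =>
    rw [List.ofFn_succ, List.prod_cons, Fin.prod_univ_succ, A.actR_mul h₃, A.act_eq,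
      ih (fun i => p i.succ)]

/-- `PowLE ↔ I₁ ^ n ≤ I₃`.  `I ^ n` is spanned by the products `∏ f_i`, `f_i ∈ I`
(e.g. `Ideal.pow_le`-style induction / `Submodule.pow_induction_on_left'` / prove by induction on
`n` the statement: for all lists of `n` elements of `I₁` the product is in `I₃`, generalised to
`∏ f_i ≡ ∏ f_i' mod I₃`). `(List.ofFn fun i => r₃.act (p i)).prod = actR r₃ (∏ i, elt (p i))`. -/
theorem powLE_iff (hA : A.RhoMul) {r₁ : Rep s k d₁} {r₃ : Rep s k d₃}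
    (h₁ : r₁.IsRep A.c N) (h₃ : r₃.IsRep A.c N) (n : ℕ)
    (hN : d₁ + d₃ + 2 * s.genus ≤ N) :
    Rep.PowLE N n r₁ r₃ ↔ A.idl r₁ ^ n ≤ A.idl r₃ := by
  constructor
  · intro h
    apply MulLE_pow_le
    intro f hf
    choose p hp hpf using fun i => A.MulLE_exists_elt hA h₁ h₃ hN (hf i)
    have h0 := h p hp
    rw [A.MulLE_prod_act h₃, ← A.mem_idl_iff h₃] at h0
    rw [← Ideal.Quotient.eq_zero_iff_mem] at h0 ⊢
    rw [map_prod] at h0 ⊢
    rw [← h0]
    refine Finset.prod_congr rfl fun i _ => ?_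
    exact (Ideal.Quotient.eq).2 (hpf i)
  · intro h p hp
    rw [A.MulLE_prod_act h₃, ← A.mem_idl_iff h₃]
    apply h
    have h1 : ∏ i, A.elt (p i) ∈ ∏ _i : Fin n, A.idl r₁ :=
      Ideal.prod_mem_prod fun i _ => (A.mem_iff h₁ (p i)).1 (hp i)
    simpa using h1

/-- `Princ ↔ principal`.  `→`: `f = elt p ≠ 0` in `I`, `rho f ≤ d`:
`codim (f) = rho f ≤ d = codim I` and `(f) ≤ I` so `(f) = I` (`eq_of_le_of_codim_le`).
`←`: `I = (f)`, `rho f = codim I = d < N`, `exists_elt_eq`, `wtLE_iff`. -/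
theorem princ_iff (hA : A.RhoMul) {r : Rep s k d} (hr : r.IsRep A.c N) (hN : d < N) :
    r.Princ N ↔ (A.idl r).IsPrincipal := by
  constructor
  · rintro ⟨p, hp0, hw, hmem⟩
    have hf0 : A.elt p ≠ 0 := fun h => hp0 ((A.elt_eq_zero_iff p).1 h)
    have hfI : A.elt p ∈ A.idl r := (A.mem_iff hr p).1 hmem
    have hrho : A.rho (A.elt p) ≤ d := (A.wtLE_iff p).1 hw
    have hspan : Ideal.span {A.elt p} ≠ ⊥ := by
      rw [Ne, Ideal.span_singleton_eq_bot]
      exact hf0
    have hle : Ideal.span {A.elt p} ≤ A.idl r := by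
      rw [Ideal.span_singleton_le_iff_mem]
      exact hfI
    have heq : Ideal.span {A.elt p} = A.idl r := by
      apply A.eq_of_le_of_codim_le hA hspan hle
      rw [A.codim_span_singleton hA hf0, A.codim_idl hr]
      exact hrho
    exact ⟨⟨A.elt p, heq.symm⟩⟩
  · rintro ⟨⟨f, hf⟩⟩
    have hf' : A.idl r = Ideal.span {f} := hf
    have hf0 : f ≠ 0 := by
      intro h
      apply A.idl_ne_bot hr
      rw [hf', h]
      simp
    have hrho : A.rho f = d := by
      rw [← A.codim_span_singleton hA hf0, ← hf', A.codim_idl hr]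
    obtain ⟨p, hp⟩ := A.exists_elt_eq (N := N) (f := f) ((A.wtLT_iff).2 (Or.inr (by omega)))
    refine ⟨p, ?_, ?_, ?_⟩
    · intro h
      exact hf0 (hp ▸ (A.elt_eq_zero_iff p).2 h)
    · rw [A.wtLE_iff, hp, hrho]
    · rw [A.mem_iff hr, hp, hf']
      exact Ideal.mem_span_singleton_self f

end Fermat.Agent.S27.E.AlgModel
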