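import Fermat.Agent.S27.E.Defs
import Fermat.Agent.S27.E.Codim
import Fermat.Agent.S27.E.CodimMul
import Fermat.Agent.S27.E.RepToIdeal
import Fermat.Agent.S27.E.IdealToRep
import Fermat.Agent.S27.E.MulLE

/-!
# Block E, file TorsEquiv: `Tors`, `Equiv` in terms of the class group of `R`
-/

set_option autoImplicit false

namespace Fermat.Agent.S27.E.AlgModel

universe u v

variable {s : Shape} {k : Type u} [Field k] {R : Type v} [CommRing R] [Algebra k R]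
  [IsDedekindDomain R] (A : AlgModel s k R) {d N : ℕ}

theorem torsEquiv_cls_of_ne {I : Ideal R} (hI : I ≠ ⊥) :
    A.cls I = ClassGroup.mk0 ⟨I, mem_nonZeroDivisors_of_ne_zero hI⟩ := by
  unfold cls
  rw [dif_pos hI]

theorem cls_mul {I J : Ideal R} (hI : I ≠ ⊥) (hJ : J ≠ ⊥) :
    A.cls (I * J) = A.cls I * A.cls J := by
  rw [A.torsEquiv_cls_of_ne hI, A.torsEquiv_cls_of_ne hJ, A.torsEquiv_cls_of_ne (mul_ne_zero hI hJ),
    ← map_mul]
  rfl

theorem cls_pow {I : Ideal R} (hI : I ≠ ⊥) (n : ℕ) : A.cls (I ^ n) = A.cls I ^ n := by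
  rw [A.torsEquiv_cls_of_ne hI, A.torsEquiv_cls_of_ne (pow_ne_zero n hI), ← map_pow]
  rfl

/-- `ClassGroup.mk0_eq_one_iff`. -/
theorem cls_eq_one_iff {I : Ideal R} (hI : I ≠ ⊥) : A.cls I = 1 ↔ I.IsPrincipal := by
  rw [A.torsEquiv_cls_of_ne hI]
  exact ClassGroup.mk0_eq_one_iff _

/-- Every class contains an ideal of codimension exactly `2 g`:  take `J ≠ ⊥` of class `a⁻¹`
(`ClassGroup.mk0_surjective`), `f ∈ J` with `rho f = codim J + 2 g` (`exists_mem_rho_eq`),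
`span {f} = J * I` (`Ideal.dvd_iff_le`); `codim_mul`, `codim_span_singleton`. -/
theorem exists_cls_eq (hA : A.RhoMul) (a : ClassGroup R) :
    ∃ I : Ideal R, I ≠ ⊥ ∧ A.codim I = 2 * s.genus ∧ A.cls I = a := by
  obtain ⟨⟨J, hJ0⟩, hJ⟩ := ClassGroup.mk0_surjective a⁻¹
  have hJne : J ≠ ⊥ := nonZeroDivisors.ne_zero hJ0
  obtain ⟨f, hfJ, hf0, hf⟩ := A.exists_mem_rho_eq hA hJne
  have hle : Ideal.span {f} ≤ J := (Ideal.span_singleton_le_iff_mem J).2 hfJ
  obtain ⟨I, hI⟩ := Ideal.dvd_iff_le.2 hle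
  have hspan : Ideal.span {f} ≠ (⊥ : Ideal R) := by
    rwa [Ne, Ideal.span_singleton_eq_bot]
  have hIne : I ≠ ⊥ := by
    rintro rfl
    exact hspan (by rw [hI]; simp)
  refine ⟨I, hIne, ?_, ?_⟩
  · have h1 := A.codim_span_singleton hA hf0
    rw [hI, A.codim_mul hA hJne hIne, hf] at h1
    omega
  · have h1 : A.cls (Ideal.span {f}) = 1 := (A.cls_eq_one_iff hspan).2 ⟨⟨f, rfl⟩⟩
    rw [hI, A.cls_mul hJne hIne, A.torsEquiv_cls_of_ne hJne, hJ] at h1
    exact (inv_mul_eq_one.1 h1).symm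

/-- `→`: `L = idl r'` has codim `n d = codim (I^n)` and contains `I^n`, so `L = I^n`, principal.
`←`: `exists_rep` for `I^n`. -/
theorem tors_iff (hA : A.RhoMul) {r : Rep s k d} (hr : r.IsRep A.c N) (n : ℕ)
    (hN : n * d + d + 2 * s.genus < N) :
    r.Tors A.c N n ↔ A.cls (A.idl r) ^ n = 1 := by
  have hI := A.idl_ne_bot hr
  have hIn : A.idl r ^ n ≠ ⊥ := pow_ne_zero n hI
  rw [← A.cls_pow hI, A.cls_eq_one_iff hIn]
  constructor
  · rintro ⟨r', hr', hpow, hprinc⟩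
    have h1 := (A.powLE_iff hA hr hr' n (by omega)).1 hpow
    have h2 := A.eq_pow_of_le_of_codim hA hI n h1 (by rw [A.codim_idl hr', A.codim_idl hr])
    rw [← h2]
    exact (A.princ_iff hA hr' (by omega)).1 hprinc
  · intro hp
    obtain ⟨r', hr', h⟩ := A.exists_rep (d := n * d) (N := N) hA hIn
      (by rw [A.codim_pow hA hI, A.codim_idl hr]) (by omega)
    refine ⟨r', hr', (A.powLE_iff hA hr hr' n (by omega)).2 h.ge, ?_⟩
    rw [A.princ_iff hA hr' (by omega), h]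
    exact hp

/-- `→`: `I₁ J = L₁`, `I₂ J = L₂` principal.  `←`: `J` of codim `2 g` in the class inverse to that
of `I₁` (`exists_cls_eq`), `exists_rep` for `J`, `I₁ J`, `I₂ J`. -/
theorem equiv_iff (hA : A.RhoMul) {r₁ r₂ : Rep s k d} (h₁ : r₁.IsRep A.c N) (h₂ : r₂.IsRep A.c N)
    (hN : max d (2 * s.genus) + d + 4 * s.genus < N) :
    r₁.Equiv A.c N r₂ ↔ A.cls (A.idl r₁) = A.cls (A.idl r₂) := by
  have hI₁ := A.idl_ne_bot h₁
  have hI₂ := A.idl_ne_bot h₂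
  have hmax1 : d ≤ max d (2 * s.genus) := le_max_left _ _
  have hmax2 : 2 * s.genus ≤ max d (2 * s.genus) := le_max_right _ _
  constructor
  · rintro ⟨r', t₁, t₂, hr', ht₁, ht₂, hm₁, hp₁, hm₂, hp₂⟩
    have hJ := A.idl_ne_bot hr'
    have key : ∀ {r : Rep s k d} {t : Rep s k (d + 2 * s.genus)}, r.IsRep A.c N →
        t.IsRep A.c N → Rep.MulLE N r r' t → t.Princ N →
        A.cls (A.idl r) * A.cls (A.idl r') = 1 := by
      intro r t hr ht hm hp
      have hI := A.idl_ne_bot hr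
      have h1 := (A.mulLE_iff hA hr hr' ht (by omega)).1 hm
      have h2 := A.eq_mul_of_le_of_codim hA hI hJ h1
        (by rw [A.codim_idl ht, A.codim_idl hr, A.codim_idl hr'])
      rw [← A.cls_mul hI hJ, A.cls_eq_one_iff (mul_ne_zero hI hJ), ← h2]
      exact (A.princ_iff hA ht (by omega)).1 hp
    have e₁ := key h₁ ht₁ hm₁ hp₁
    have e₂ := key h₂ ht₂ hm₂ hp₂
    exact mul_right_cancel (e₁.trans e₂.symm)
  · intro he
    obtain ⟨J, hJ, hJc, hJcls⟩ := A.exists_cls_eq hA (A.cls (A.idl r₁))⁻¹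
    obtain ⟨r', hr', hr'J⟩ := A.exists_rep (d := 2 * s.genus) (N := N) hA hJ hJc (by omega)
    have key : ∀ {r : Rep s k d}, r.IsRep A.c N → A.cls (A.idl r) = A.cls (A.idl r₁) →
        ∃ t : Rep s k (d + 2 * s.genus), t.IsRep A.c N ∧ Rep.MulLE N r r' t ∧ t.Princ N := by
      intro r hr hcls
      have hI := A.idl_ne_bot hr
      obtain ⟨t, ht, htI⟩ := A.exists_rep (d := d + 2 * s.genus) (N := N) hA (mul_ne_zero hI hJ)
        (by rw [A.codim_mul hA hI hJ, A.codim_idl hr, hJc]) (by omega)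
      refine ⟨t, ht, (A.mulLE_iff hA hr hr' ht (by omega)).2 (by rw [htI, hr'J]), ?_⟩
      rw [A.princ_iff hA ht (by omega), htI, ← A.cls_eq_one_iff (mul_ne_zero hI hJ),
        A.cls_mul hI hJ, hJcls, hcls, mul_inv_cancel]
    obtain ⟨t₁, ht₁, hm₁, hp₁⟩ := key h₁ rfl
    obtain ⟨t₂, ht₂, hm₂, hp₂⟩ := key h₂ he.symm
    exact ⟨r', t₁, t₂, hr', ht₁, ht₂, hm₁, hp₁, hm₂, hp₂⟩

end Fermat.Agent.S27.E.AlgModel
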