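import Fermat.Agent.S27.E.Defs
import Fermat.Agent.S27.E.TorsEquiv

/-!
# Block E, file Count: `Count s n A.c ↔ #Cl(R)[n] = n^(2g)`
-/

set_option autoImplicit false

namespace Fermat.Agent.S27.E.AlgModel

universe u v

variable {s : Shape} {k : Type u} [Field k] {R : Type v} [CommRing R] [Algebra k R]
  [IsDedekindDomain R] (A : AlgModel s k R)

/-- every `n`-torsion class is the class of a representation. -/
theorem count_exists_rep (hA : A.RhoMul) (n : ℕ) (a : ClassGroup R) :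
    ∃ r : Rep s k (2 * s.genus), r.IsRep A.c (s.N n) ∧ A.cls (A.idl r) = a := by
  have hNdef : s.N n = 2 * (s.genus * n) + 8 * s.genus + 1 := by unfold Shape.N; ring
  obtain ⟨I, hI, hc, hcls⟩ := A.exists_cls_eq hA a
  obtain ⟨r, hr, hrI⟩ := A.exists_rep (d := 2 * s.genus) (N := s.N n) hA hI hc (by omega)
  exact ⟨r, hr, by rw [hrI, hcls]⟩

/-- `r ↦ cls (idl r)` induces a bijection `{IsRep, Tors} / Equiv ≃ Cl(R)[n]` (`tors_iff`,
`equiv_iff`, `exists_cls_eq`, `exists_rep`, with `d = 2 g`, `N = s.N n = 2 g (n + 4) + 1`).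
`→`: `i ↦ cls (idl (R i))` is a bijection `Fin (n^(2g)) → Cl(R)[n]`.
`←`: `Nat.card = n^(2g) > 0` gives finiteness and an equivalence with `Fin (n^(2g))`
(`Finite.equivFinOfCardEq`). -/
theorem count_iff (hA : A.RhoMul) (n : ℕ) (hn : 0 < n) :
    Count s n A.c ↔ Nat.card {a : ClassGroup R // a ^ n = 1} = n ^ (2 * s.genus) := by
  have hNdef : s.N n = 2 * (s.genus * n) + 8 * s.genus + 1 := by unfold Shape.N; ring
  have hnd : n * (2 * s.genus) = 2 * (s.genus * n) := by ring
  have htors : ∀ {r : Rep s k (2 * s.genus)}, r.IsRep A.c (s.N n) →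
      (r.Tors A.c (s.N n) n ↔ A.cls (A.idl r) ^ n = 1) := fun hr =>
    A.tors_iff hA hr n (by omega)
  have hequiv : ∀ {r₁ r₂ : Rep s k (2 * s.genus)}, r₁.IsRep A.c (s.N n) → r₂.IsRep A.c (s.N n) →
      (r₁.Equiv A.c (s.N n) r₂ ↔ A.cls (A.idl r₁) = A.cls (A.idl r₂)) := fun h₁ h₂ =>
    A.equiv_iff hA h₁ h₂ (by rw [max_self]; omega)
  constructor
  · rintro ⟨Rf, h1, h2, h3⟩
    let ψ : Fin (n ^ (2 * s.genus)) → {a : ClassGroup R // a ^ n = 1} := fun i =>
      ⟨A.cls (A.idl (Rf i)), (htors (h1 i).1).1 (h1 i).2⟩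
    have hψ : Function.Bijective ψ := by
      constructor
      · intro i j hij
        by_contra hne
        exact h2 i j hne ((hequiv (h1 i).1 (h1 j).1).2 (congrArg Subtype.val hij))
      · rintro ⟨a, ha⟩
        obtain ⟨r, hr, hra⟩ := A.count_exists_rep hA n a
        obtain ⟨i, hi⟩ := h3 r hr ((htors hr).2 (by rw [hra, ha]))
        exact ⟨i, Subtype.ext (((hequiv hr (h1 i).1).1 hi).symm.trans hra)⟩
    rw [← Nat.card_eq_of_bijective ψ hψ, Nat.card_fin]
  · intro hcard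
    have hfin : Finite {a : ClassGroup R // a ^ n = 1} :=
      Nat.finite_of_card_ne_zero (by rw [hcard]; exact (pow_pos hn _).ne')
    let e := Finite.equivFinOfCardEq hcard
    choose Rf hRf hRfa using fun i : Fin (n ^ (2 * s.genus)) =>
      A.count_exists_rep hA n (e.symm i).1
    refine ⟨Rf, fun i => ⟨hRf i, (htors (hRf i)).2 (by rw [hRfa]; exact (e.symm i).2)⟩, ?_, ?_⟩
    · intro i j hij hE
      have := (hequiv (hRf i) (hRf j)).1 hE
      rw [hRfa, hRfa] at this
      exact hij (e.symm.injective (Subtype.ext this))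
    · intro r hr ht
      refine ⟨e ⟨A.cls (A.idl r), (htors hr).1 ht⟩, ?_⟩
      rw [hequiv hr (hRf _), hRfa, Equiv.symm_apply_apply]

end Fermat.Agent.S27.E.AlgModel
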