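import Fermat.Agent.S27.Shape

/-!
# Project S27, block E: the algebraic one point model (definitions)

Everything in block E (and K3) is done for an *abstract* `k`-algebra `R` with a basis of monomials
`x^t y_j` and a multiplicative weight function: `AlgModel s k R`, `AlgModel.RhoMul`.
Two sources of such objects:
* `R = {f ∈ F | f regular outside inf}` for a `OnePointModel k F s` (block API),
* `R = R_c` for a valid table `c` (block M4).
-/

set_option autoImplicit false

noncomputable section

namespace Fermat.Agent.S27

universe u v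

namespace Shape

variable (s : Shape)

/-- weight of the monomial `x^t y_j` (index `(j, t)`). -/
def wt (jt : Fin s.m × ℕ) : ℕ := s.m * jt.2 + s.b jt.1

/-- the semigroup of weights `{m t + b_j}`. -/
def H : Set ℕ := Set.range s.wt

end Shape

namespace E

/-- An algebraic one point model of shape `s`: a commutative `k`-algebra `R` with `k`-basis
`x^t y_j`, `y_0 = 1` and multiplication table `c`. -/
structure AlgModel (s : Shape) (k : Type u) [Field k] (R : Type v) [CommRing R] [Algebra k R] where
  x : R
  y : Fin s.m → R
  c : Table s k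
  y_zero : y s.zero = 1
  mul_table : ∀ i j, y i * y j = ∑ l, Polynomial.aeval x (c.poly i j l) * y l
  basis : Module.Basis (Fin s.m × ℕ) k R
  basis_apply : ∀ jt : Fin s.m × ℕ, basis jt = x ^ jt.2 * y jt.1

namespace AlgModel

variable {s : Shape} {k : Type u} [Field k] {R : Type v} [CommRing R] [Algebra k R]
  (A : AlgModel s k R)

/-- the weight (pole order at infinity) of `f`; junk value `0` at `0`. -/
def rho (f : R) : ℕ := (A.basis.repr f).support.sup s.wt

/-- the weight is multiplicative. -/
def RhoMul : Prop := ∀ f g : R, f ≠ 0 → g ≠ 0 → A.rho (f * g) = A.rho f + A.rho g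

/-- weights of the non zero elements of a subspace. -/
def Gam (J : Submodule k R) : Set ℕ := {n | ∃ f ∈ J, f ≠ 0 ∧ A.rho f = n}

/-- the element `∑ p j t x^t y_j`. -/
def elt {N : ℕ} (p : Elt s N k) : R := ∑ j, ∑ t : Fin N, p j t • (A.x ^ (t : ℕ) * A.y j)

/-- codimension of an ideal. -/
def codim (_A : AlgModel s k R) (I : Ideal R) : ℕ := Module.finrank k (R ⧸ I)

/-- the `k`-linear map `x^t y_j ↦ X^t Y_j` (an algebra hom if `r.IsRep`). -/
def actR {d : ℕ} (r : Rep s k d) : R →ₗ[k] Matrix (Fin d) (Fin d) k :=
  A.basis.constr k fun jt => r.X ^ jt.2 * r.Y jt.1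

/-- the ideal coded by `r`: the largest ideal contained in `{f | f • e = 0}` (equal to it if
`r.IsRep`). -/
def idl {d : ℕ} (r : Rep s k d) : Ideal R where
  carrier := {f | ∀ g : R, (A.actR r (g * f)).mulVec r.e = 0}
  add_mem' := by
    intro a b ha hb g
    rw [mul_add, map_add, Matrix.add_mulVec, ha g, hb g, add_zero]
  zero_mem' := by
    intro g
    simp
  smul_mem' := by
    intro c f hf g
    rw [smul_eq_mul, ← mul_assoc]
    exact hf (g * c)

/-- the class of an ideal (junk value `1` at `⊥`). -/
def cls [IsDedekindDomain R] (_A : AlgModel s k R) (I : Ideal R) : ClassGroup R :=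
  open Classical in
  if h : I ≠ ⊥ then ClassGroup.mk0 ⟨I, mem_nonZeroDivisors_of_ne_zero h⟩ else 1

end AlgModel

end E

end Fermat.Agent.S27
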