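import Fermat.Agent.S27.Hyp
import Fermat.Agent.S24.PlaceDedekind

/-!
# Block E, file PicClass (E1): `Pic⁰(F) ≃ Cl(R)` when `R` is the ring of functions regular outside
one place `inf` of degree one.   (Independent of `AlgModel`.)
-/

set_option autoImplicit false

namespace Fermat.Agent.S27.E

open AlgebraicCurve IsDedekindDomain

universe u v w

variable {k : Type u} {F : Type v} [Field k] [Field F] [Algebra k F]
  {R : Type w} [CommRing R] [IsDedekindDomain R] [Algebra k R] [Algebra R F] [IsScalarTower k R F]
  [IsFractionRing R F]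

/-- all places have degree one. -/
theorem deg_eq_one (h : BaseHyp k F) (v : Place k F) : v.deg = 1 := by
  have hbij : Function.Bijective (algebraMap k v.ResidueField) :=
    ⟨(algebraMap k v.ResidueField).injective, h.residue v⟩
  show Module.finrank k v.ResidueField = 1
  rw [← Module.finrank_self k]
  exact ((AlgEquiv.ofBijective (Algebra.ofId k v.ResidueField) hbij).toLinearEquiv.finrank_eq).symm

/-- The places `≠ inf` are the `Place.ofHeightOneSpectrum w`
(`Fermat.Agent.S24.centre`, `ofHeightOneSpectrum_centre`, `centre_ofHeightOneSpectrum`). -/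
theorem exists_ofHeightOneSpectrum_eq (inf : Place k F)
    (hreg : ∀ v : Place k F, v ≠ inf → ∀ b : R, algebraMap R F b ∈ v.toValuationSubring)
    (v : Place k F) (hv : v ≠ inf) :
    ∃ w : HeightOneSpectrum R, Place.ofHeightOneSpectrum (K := k) (F := F) w = v :=
  ⟨S24.centre v (hreg v hv), S24.ofHeightOneSpectrum_centre v _⟩

theorem ofHeightOneSpectrum_injective :
    Function.Injective (Place.ofHeightOneSpectrum (K := k) (F := F) (R := R)) := by
  intro w w' h
  have key : ∀ (v v' : Place k F) (hv : ∀ b : R, algebraMap R F b ∈ v.toValuationSubring)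
      (hv' : ∀ b : R, algebraMap R F b ∈ v'.toValuationSubring), v = v' →
      S24.centre v hv = S24.centre v' hv' := by
    rintro v _ hv hv' rfl
    rfl
  rw [← S24.centre_ofHeightOneSpectrum (K := k) (F := F) w,
    ← S24.centre_ofHeightOneSpectrum (K := k) (F := F) w']
  exact key _ _ _ _ h

theorem PicClass_log_valuation_algebraMap (w : HeightOneSpectrum R) {a : R} (ha : a ≠ 0) :
    -WithZero.log (w.valuation F (algebraMap R F a)) =
      FractionalIdeal.count F w
        (FractionalIdeal.spanSingleton (nonZeroDivisors R) (algebraMap R F a)) := by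
  classical
  rw [HeightOneSpectrum.valuation_of_algebraMap, HeightOneSpectrum.intValuation_if_neg _ ha,
    WithZero.log_exp, neg_neg, ← FractionalIdeal.coeIdeal_span_singleton,
    FractionalIdeal.count_coe]
  rwa [Ne, Ideal.zero_eq_bot, Ideal.span_singleton_eq_bot]

/-- `ord` at the place of `w` is the exponent of `w` in the principal fractional ideal
(`Fermat.Agent.S24.ofHeightOneSpectrum_ord`; write `f = a / b`, `FractionalIdeal.count_well_defined`
or `count_mul`/`count_inv`/`count_coe`, and `HeightOneSpectrum.valuation_of_algebraMap`,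
`intValuation` = `exp (-count)`). -/
theorem ord_ofHeightOneSpectrum_eq_count (w : HeightOneSpectrum R) {f : F} (hf : f ≠ 0) :
    (Place.ofHeightOneSpectrum (K := k) (F := F) w).ord f =
      FractionalIdeal.count F w (FractionalIdeal.spanSingleton (nonZeroDivisors R) f) := by
  rw [S24.ofHeightOneSpectrum_ord]
  obtain ⟨a, b, hb, rfl⟩ := IsFractionRing.div_surjective (A := R) f
  have hb0 : b ≠ 0 := nonZeroDivisors.ne_zero hb
  have hbF : algebraMap R F b ≠ 0 := by
    simpa using (IsFractionRing.injective R F).ne hb0
  have haF : algebraMap R F a ≠ 0 := by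
    intro h
    apply hf
    rw [h, zero_div]
  have ha0 : a ≠ 0 := by
    rintro rfl
    exact haF (map_zero _)
  have h1 : FractionalIdeal.spanSingleton (nonZeroDivisors R) (algebraMap R F a / algebraMap R F b)
      = FractionalIdeal.spanSingleton (nonZeroDivisors R) (algebraMap R F a) *
        (FractionalIdeal.spanSingleton (nonZeroDivisors R) (algebraMap R F b))⁻¹ := by
    rw [FractionalIdeal.spanSingleton_inv, FractionalIdeal.spanSingleton_mul_spanSingleton,
      div_eq_mul_inv]
  have hA : FractionalIdeal.spanSingleton (nonZeroDivisors R) (algebraMap R F a) ≠ 0 := by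
    rwa [Ne, FractionalIdeal.spanSingleton_eq_zero_iff]
  have hB : FractionalIdeal.spanSingleton (nonZeroDivisors R) (algebraMap R F b) ≠ 0 := by
    rwa [Ne, FractionalIdeal.spanSingleton_eq_zero_iff]
  rw [h1, FractionalIdeal.count_mul F w hA (inv_ne_zero hB), FractionalIdeal.count_inv,
    ← PicClass_log_valuation_algebraMap w ha0, ← PicClass_log_valuation_algebraMap w hb0,
    map_div₀, div_eq_mul_inv,
    WithZero.log_mul ((Valuation.ne_zero_iff _).mpr haF)
      (inv_ne_zero ((Valuation.ne_zero_iff _).mpr hbF)), WithZero.log_inv]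
  ring

/-- the degree is the sum of the coefficients. -/
theorem degree_eq_sum (h : BaseHyp k F) (D : Divisor k F) :
    Divisor.degree D = D.sum fun _ n => n := by
  simp [Divisor.degree, Finsupp.liftAddHom_apply, deg_eq_one h]

/-- a divisor of degree `0` which vanishes outside `inf` is `0`. -/
theorem eq_zero_of_degree_eq_zero (h : BaseHyp k F) (inf : Place k F) (D : Divisor k F)
    (hD : Divisor.degree D = 0) (h0 : ∀ v, v ≠ inf → D v = 0) : D = 0 := by
  classical
  have h1 : D = Finsupp.single inf (D inf) := by
    ext v
    rw [Finsupp.single_apply]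
    split_ifs with hv
    · rw [hv]
    · exact h0 v (fun h => hv h.symm)
  rw [h1, Divisor.degree_single, deg_eq_one h] at hD
  rw [h1]
  have : D inf = 0 := by simpa using hD
  rw [this, Finsupp.single_zero]

/-- the divisor of a non zero function. -/
theorem exists_div (h : BaseHyp k F) {f : F} (hf : f ≠ 0) :
    ∃ D : Divisor k F, (∀ v, D v = v.ord f) ∧ Divisor.degree D = 0 :=
  h.principal.exists_divisor f hf

end Fermat.Agent.S27.E
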