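import Fermat.Agent.S27.Hyp
import Fermat.Agent.S24.PlaceDedekind
import Fermat.Agent.S27.E.PicClass

/-!
# Block E, file PicClass2 (E1): `Pic⁰(F) ≃ Cl(R)` when `R` is the ring of functions regular outside
one place `inf` of degree one.   (Independent of `AlgModel`.)
-/

set_option autoImplicit false

namespace Fermat.Agent.S27.E

open AlgebraicCurve IsDedekindDomain
open scoped nonZeroDivisors

universe u v w

variable {k : Type u} {F : Type v} [Field k] [Field F] [Algebra k F]
  {R : Type w} [CommRing R] [IsDedekindDomain R] [Algebra k R] [Algebra R F] [IsScalarTower k R F]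
  [IsFractionRing R F]

namespace PicClass2

variable (F) in
/-- a prime of `R` as an invertible fractional ideal. -/
noncomputable def primeUnit (w : HeightOneSpectrum R) : (FractionalIdeal R⁰ F)ˣ :=
  Units.mk0 (w.asIdeal : FractionalIdeal R⁰ F) (FractionalIdeal.coeIdeal_ne_zero.mpr w.ne_bot)

variable (R) in
open Classical in
/-- the fractional ideal attached to a place (`1` for the places which do not come from `R`). -/
noncomputable def gen (v : Place k F) : (FractionalIdeal R⁰ F)ˣ :=
  if h : ∃ w : HeightOneSpectrum R, Place.ofHeightOneSpectrum (K := k) (F := F) w = v then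
    primeUnit F h.choose else 1

variable (F) in
/-- the exponent of `w`, as a homomorphism. -/
noncomputable def cnt (w : HeightOneSpectrum R) : Additive (FractionalIdeal R⁰ F)ˣ →+ ℤ where
  toFun I := FractionalIdeal.count F w ((Additive.toMul I : (FractionalIdeal R⁰ F)ˣ) :
    FractionalIdeal R⁰ F)
  map_zero' := by simp [FractionalIdeal.count_one]
  map_add' I J := FractionalIdeal.count_mul F w (Units.ne_zero _) (Units.ne_zero _)

variable (R) in
/-- divisor `↦` fractional ideal. -/
noncomputable def theta : Divisor k F →+ Additive (FractionalIdeal R⁰ F)ˣ :=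
  Finsupp.liftAddHom fun v =>
    (zmultiplesHom (Additive (FractionalIdeal R⁰ F)ˣ)) (Additive.ofMul (gen R v))

open Classical in
theorem cnt_gen (w : HeightOneSpectrum R) (v : Place k F) :
    cnt F w (Additive.ofMul (gen R v)) =
      if v = Place.ofHeightOneSpectrum (K := k) (F := F) w then 1 else 0 := by
  unfold gen
  split_ifs with h1 h2 h2
  · have hc := h1.choose_spec
    have : h1.choose = w := ofHeightOneSpectrum_injective (k := k) (F := F) (hc.trans h2)
    simp only [cnt, primeUnit, AddMonoidHom.coe_mk, ZeroHom.coe_mk, toMul_ofMul, Units.val_mk0, this]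
    exact FractionalIdeal.count_self F w
  · have hc := h1.choose_spec
    have : h1.choose ≠ w := by
      intro h
      exact h2 (by rw [← hc, h])
    simp only [cnt, primeUnit, AddMonoidHom.coe_mk, ZeroHom.coe_mk, toMul_ofMul, Units.val_mk0]
    exact FractionalIdeal.count_maximal_coprime F w this
  · exact absurd ⟨w, h2.symm⟩ h1
  · simp [cnt, FractionalIdeal.count_one]

theorem cnt_theta (w : HeightOneSpectrum R) (D : Divisor k F) :
    cnt F w (theta R D) = D (Place.ofHeightOneSpectrum (K := k) (F := F) w) := by
  classical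
  have : (cnt F w).comp (theta R) =
      Finsupp.applyAddHom (Place.ofHeightOneSpectrum (K := k) (F := F) w) := by
    apply Finsupp.addHom_ext
    intro v n
    simp only [theta, AddMonoidHom.comp_apply, Finsupp.liftAddHom_apply_single,
      zmultiplesHom_apply, map_zsmul, cnt_gen, Finsupp.applyAddHom_apply, Finsupp.single_apply]
    split_ifs <;> simp
  exact DFunLike.congr_fun this D

theorem ext_count {I J : (FractionalIdeal R⁰ F)ˣ}
    (h : ∀ w : HeightOneSpectrum R, FractionalIdeal.count F w (I : FractionalIdeal R⁰ F) =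
      FractionalIdeal.count F w (J : FractionalIdeal R⁰ F)) : I = J := by
  apply Units.ext
  rw [← FractionalIdeal.finprod_heightOneSpectrum_factorization' F (Units.ne_zero I),
    ← FractionalIdeal.finprod_heightOneSpectrum_factorization' F (Units.ne_zero J)]
  simp only [h]

theorem theta_eq_span_iff (D : Divisor k F) {f : F} (hf : f ≠ 0) :
    ((Additive.toMul (theta R D) : (FractionalIdeal R⁰ F)ˣ) : FractionalIdeal R⁰ F) =
      FractionalIdeal.spanSingleton R⁰ f ↔
    ∀ w : HeightOneSpectrum R, D (Place.ofHeightOneSpectrum (K := k) (F := F) w) =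
      (Place.ofHeightOneSpectrum (K := k) (F := F) w).ord f := by
  constructor
  · intro h w
    rw [ord_ofHeightOneSpectrum_eq_count w hf, ← h, ← cnt_theta]
    rfl
  · intro h
    have h0 : FractionalIdeal.spanSingleton R⁰ f ≠ 0 := by
      rwa [Ne, FractionalIdeal.spanSingleton_eq_zero_iff]
    have : Additive.toMul (theta R D) = Units.mk0 (FractionalIdeal.spanSingleton R⁰ f) h0 := by
      apply ext_count
      intro w
      rw [Units.val_mk0, ← ord_ofHeightOneSpectrum_eq_count (k := k) w hf, ← h w, ← cnt_theta]
      rfl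
    rw [this, Units.val_mk0]

variable (k F R) in
/-- the homomorphism `Div⁰(F) → Cl(R)`. -/
noncomputable def phi : Divisor.degZero (K := k) (F := F) →+ Additive (ClassGroup R) :=
  ((MonoidHom.toAdditive (ClassGroup.mk F)).comp (theta R)).comp
    (Divisor.degZero (K := k) (F := F)).subtype

theorem phi_apply (D : Divisor.degZero (K := k) (F := F)) :
    phi k F R D = Additive.ofMul (ClassGroup.mk F (Additive.toMul (theta R (D : Divisor k F)))) :=
  rfl

theorem ker_phi (h : BaseHyp k F) (inf : Place k F)
    (hreg : ∀ v : Place k F, v ≠ inf → ∀ b : R, algebraMap R F b ∈ v.toValuationSubring) :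
    (phi k F R).ker =
      (Divisor.principal (K := k) (F := F)).addSubgroupOf (Divisor.degZero (K := k) (F := F)) := by
  ext D
  rw [AddMonoidHom.mem_ker, phi_apply, AddSubgroup.mem_addSubgroupOf, Divisor.mem_principal]
  have e1 : Additive.ofMul (ClassGroup.mk F (Additive.toMul (theta R (D : Divisor k F)))) = 0 ↔
      ClassGroup.mk F (Additive.toMul (theta R (D : Divisor k F))) = 1 := Iff.rfl
  rw [e1, ClassGroup.mk_eq_one_iff]
  constructor
  · intro hp
    obtain ⟨x, hx⟩ := hp.principal
    have hx' : ((Additive.toMul (theta R (D : Divisor k F)) : (FractionalIdeal R⁰ F)ˣ) :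
        FractionalIdeal R⁰ F) = FractionalIdeal.spanSingleton R⁰ x := by
      apply Subtype.coe_injective
      simp only [FractionalIdeal.val_eq_coe, hx, FractionalIdeal.coe_spanSingleton]
    have hx0 : x ≠ 0 := by
      rintro rfl
      exact Units.ne_zero (Additive.toMul (theta R (D : Divisor k F))) (by simp [hx'])
    have hw := (theta_eq_span_iff (D : Divisor k F) hx0).mp hx'
    obtain ⟨E, hE, hEdeg⟩ := exists_div h hx0
    have hDE : (D : Divisor k F) - E = 0 := by
      apply eq_zero_of_degree_eq_zero h inf
      · rw [map_sub, hEdeg, Divisor.mem_degZero.mp D.2, sub_zero]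
      · intro v hv
        obtain ⟨w, rfl⟩ := exists_ofHeightOneSpectrum_eq inf hreg v hv
        rw [Finsupp.sub_apply, hw w, hE, sub_self]
    refine ⟨x, hx0, fun v => ?_⟩
    rw [sub_eq_zero.mp hDE, hE]
  · rintro ⟨f, hf, hD⟩
    have := (theta_eq_span_iff (R := R) (D : Divisor k F) hf).mpr (fun w => hD _)
    rw [this, FractionalIdeal.coe_spanSingleton]
    exact ⟨⟨f, rfl⟩⟩

theorem phi_surjective (h : BaseHyp k F) (inf : Place k F)
    (hinf : ∀ w : HeightOneSpectrum R, Place.ofHeightOneSpectrum (K := k) (F := F) w ≠ inf) :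
    Function.Surjective (phi k F R) := by
  intro a
  obtain ⟨I, hh⟩ : ∃ I : (FractionalIdeal R⁰ F)ˣ, ClassGroup.mk F I = Additive.toMul a :=
    ClassGroup.induction F (P := fun x => ∃ I : (FractionalIdeal R⁰ F)ˣ, ClassGroup.mk F I = x)
      (fun I => ⟨I, rfl⟩) _
  have hfin : (Function.support fun w : HeightOneSpectrum R =>
      FractionalIdeal.count F w (I : FractionalIdeal R⁰ F)).Finite :=
    FractionalIdeal.finite_factors (I : FractionalIdeal R⁰ F)
  set E : HeightOneSpectrum R →₀ ℤ := Finsupp.ofSupportFinite _ hfin with hE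
  set D₀ : Divisor k F := E.mapDomain (Place.ofHeightOneSpectrum (K := k) (F := F)) with hD₀
  set D : Divisor k F := D₀ - Finsupp.single inf (Divisor.degree D₀) with hD
  have hdeg : Divisor.degree D = 0 := by
    rw [hD, map_sub, Divisor.degree_single, deg_eq_one h inf]
    simp
  have hval : ∀ w : HeightOneSpectrum R, D (Place.ofHeightOneSpectrum (K := k) (F := F) w) =
      FractionalIdeal.count F w (I : FractionalIdeal R⁰ F) := by
    intro w
    rw [hD, Finsupp.sub_apply, Finsupp.single_eq_of_ne (hinf w), sub_zero, hD₀,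
      Finsupp.mapDomain_apply (ofHeightOneSpectrum_injective (k := k) (F := F))]
    rfl
  refine ⟨⟨D, Divisor.mem_degZero.mpr hdeg⟩, ?_⟩
  rw [phi_apply]
  have : Additive.toMul (theta R D) = I := by
    apply ext_count
    intro w
    rw [← hval w, ← cnt_theta]
    rfl
  rw [this, hh]
  rfl

end PicClass2

/-- **E1.**  `D ↦ ∏_w w^(D (place of w))` is a group isomorphism from the divisors of degree `0`
onto the group of invertible fractional ideals of `R` (the coefficient at `inf` is determined by the
degree), which maps principal divisors onto principal fractional ideals. -/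
theorem nonempty_pic0_equiv_classGroup (h : BaseHyp k F) (inf : Place k F)
    (hreg : ∀ v : Place k F, v ≠ inf → ∀ b : R, algebraMap R F b ∈ v.toValuationSubring)
    (hinf : ∀ w : HeightOneSpectrum R, Place.ofHeightOneSpectrum (K := k) (F := F) w ≠ inf) :
    Nonempty (Pic0 k F ≃+ Additive (ClassGroup R)) :=
  ⟨(QuotientAddGroup.quotientAddEquivOfEq (PicClass2.ker_phi h inf hreg).symm).trans
    (QuotientAddGroup.quotientKerEquivOfSurjective (PicClass2.phi k F R)
      (PicClass2.phi_surjective h inf hinf))⟩

theorem card_torsion_eq (h : BaseHyp k F) (inf : Place k F)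
    (hreg : ∀ v : Place k F, v ≠ inf → ∀ b : R, algebraMap R F b ∈ v.toValuationSubring)
    (hinf : ∀ w : HeightOneSpectrum R, Place.ofHeightOneSpectrum (K := k) (F := F) w ≠ inf)
    (n : ℕ) :
    Nat.card (Pic0.torsion k F n) = Nat.card {a : ClassGroup R // a ^ n = 1} := by
  obtain ⟨e⟩ := nonempty_pic0_equiv_classGroup (R := R) h inf hreg hinf
  refine Nat.card_congr (Equiv.subtypeEquiv (e.toEquiv.trans Additive.toMul) ?_)
  intro x
  rw [Pic0.mem_torsion, natCast_zsmul]
  show n • x = 0 ↔ (Additive.toMul (e x)) ^ n = 1
  rw [← toMul_nsmul, ← map_nsmul]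
  constructor
  · intro hx
    rw [hx, map_zero, toMul_zero]
  · intro hx
    have : e (n • x) = 0 := hx
    exact (map_eq_zero_iff e e.injective).mp this

end Fermat.Agent.S27.E
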