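import Fermat.Agent.S27.E.Defs
import Fermat.Agent.S27.E.Semigroup
import Fermat.Agent.S27.E.LemmaW

/-!
# Block E / K3, file ValidEasy: the fields `symm, unit, wt, lead, assoc` of `Valid s A.c`
-/

set_option autoImplicit false

namespace Fermat.Agent.S27.E.AlgModel

universe u v

variable {s : Shape} {k : Type u} [Field k] {R : Type v} [CommRing R] [Algebra k R]
  (A : AlgModel s k R)

/-- `aeval x (poly i j l) * y l = ∑_t c i j l t • basis (l, t)`. -/
theorem aeval_poly_mul (i j l : Fin s.m) :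
    Polynomial.aeval A.x (A.c.poly i j l) * A.y l = ∑ t : Fin s.T, A.c i j l t • A.basis (l, (t : ℕ)) := by
  rw [Table.poly, map_sum, Finset.sum_mul]
  refine Finset.sum_congr rfl fun t _ => ?_
  rw [A.basis_apply, map_mul, Polynomial.aeval_C, map_pow, Polynomial.aeval_X, Algebra.smul_def,
    mul_assoc]

theorem ValidEasy_y_mul_y_eq_elt (i j : Fin s.m) : A.y i * A.y j = A.elt (A.c i j) := by
  rw [A.mul_table, elt]
  refine Finset.sum_congr rfl fun l _ => ?_
  rw [aeval_poly_mul]
  refine Finset.sum_congr rfl fun t _ => ?_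
  rw [A.basis_apply]

/-- coordinates of `y_i y_j`. -/
theorem repr_y_mul_y (i j : Fin s.m) (lt : Fin s.m × ℕ) :
    A.basis.repr (A.y i * A.y j) lt = if h : lt.2 < s.T then A.c i j lt.1 ⟨lt.2, h⟩ else 0 := by
  rw [ValidEasy_y_mul_y_eq_elt, repr_elt]

theorem y_eq_basis (j : Fin s.m) : A.y j = A.basis (j, 0) := by
  rw [A.basis_apply, pow_zero, one_mul]

theorem one_eq_basis : (1 : R) = A.basis (s.zero, 0) := by
  rw [← y_eq_basis, A.y_zero]

theorem rho_y (j : Fin s.m) : A.rho (A.y j) = s.b j := by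
  rw [y_eq_basis, rho_basis, Shape.wt, mul_zero, zero_add]

theorem y_ne_zero (j : Fin s.m) : A.y j ≠ 0 := by
  have : Nontrivial R := ⟨⟨A.basis (j, 0), 0, by
    intro h
    have h1 := congrArg (fun f => A.basis.repr f (j, 0)) h
    simp at h1⟩⟩
  rw [y_eq_basis]
  exact A.basis.ne_zero _

theorem ValidEasy_c_eq_repr (i j l : Fin s.m) (t : Fin s.T) :
    A.c i j l t = A.basis.repr (A.y i * A.y j) (l, (t : ℕ)) := by
  rw [repr_y_mul_y, dif_pos t.2]

theorem c_symm (i j : Fin s.m) : A.c i j = A.c j i := by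
  funext l t
  rw [ValidEasy_c_eq_repr, ValidEasy_c_eq_repr, mul_comm]

theorem c_unit (j l : Fin s.m) (t : Fin s.T) :
    A.c s.zero j l t = if l = j ∧ (t : ℕ) = 0 then 1 else 0 := by
  rw [ValidEasy_c_eq_repr, A.y_zero, one_mul, y_eq_basis, Module.Basis.repr_self,
    Finsupp.single_apply]
  refine if_congr ?_ rfl rfl
  rw [Prod.mk.injEq]
  constructor
  · rintro ⟨h1, h2⟩; exact ⟨h1.symm, h2.symm⟩
  · rintro ⟨h1, h2⟩; exact ⟨h1.symm, h2.symm⟩

/-- `rho (y_i y_j) = b_i + b_j` bounds the weights of the monomials of `y_i y_j`. -/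
theorem c_wt (hA : A.RhoMul) (i j l : Fin s.m) (t : Fin s.T)
    (h : s.b i + s.b j < s.m * (t : ℕ) + s.b l) : A.c i j l t = 0 := by
  by_contra hne
  rw [ValidEasy_c_eq_repr] at hne
  have h1 : A.rho (A.y i * A.y j) ≤ s.b i + s.b j := by
    rw [hA _ _ (A.y_ne_zero i) (A.y_ne_zero j), rho_y, rho_y]
  have h2 := (A.rho_le_iff.mp h1) (l, (t : ℕ)) hne
  simp only [Shape.wt] at h2
  omega

theorem ValidEasy_eq_zero_of_b (j : Fin s.m) (h : s.b j = 0) : j = s.zero := by
  apply Fin.ext
  have h1 := s.b_mod j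
  rw [h, Nat.zero_mod] at h1
  exact h1.symm

/-- the leading monomial of `y_i y_j` has weight `b_i + b_j`, so it is `(add i j, t)`
(`Shape.wt_injective`). -/
theorem c_lead (hA : A.RhoMul) (i j : Fin s.m) (t : Fin s.T)
    (h : s.m * (t : ℕ) + s.b (s.add i j) = s.b i + s.b j) : A.c i j (s.add i j) t ≠ 0 := by
  have hrho : A.rho (A.y i * A.y j) = s.b i + s.b j := by
    rw [hA _ _ (A.y_ne_zero i) (A.y_ne_zero j), rho_y, rho_y]
  have hne : A.y i * A.y j ≠ 0 := by
    intro h0
    rw [h0, rho_zero] at hrho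
    have hi : i = s.zero := ValidEasy_eq_zero_of_b i (by omega)
    have hj : j = s.zero := ValidEasy_eq_zero_of_b j (by omega)
    rw [hi, hj, A.y_zero, one_mul] at h0
    have := A.y_ne_zero s.zero
    rw [A.y_zero] at this
    exact this h0
  obtain ⟨jt, hjt, hwt⟩ := A.exists_repr_ne_zero hne
  have h1 : jt = (s.add i j, (t : ℕ)) := by
    apply s.wt_injective
    rw [hwt, hrho, ← h, Shape.wt]
  rw [ValidEasy_c_eq_repr, ← h1]
  exact hjt

theorem ValidEasy_repr_aeval_mul_y (q : Polynomial k) (j : Fin s.m) (jt : Fin s.m × ℕ) :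
    A.basis.repr (Polynomial.aeval A.x q * A.y j) jt = if j = jt.1 then q.coeff jt.2 else 0 := by
  classical
  induction q using Polynomial.induction_on' with
  | add p q hp hq =>
    rw [map_add, add_mul, map_add, Finsupp.add_apply, hp, hq, Polynomial.coeff_add]
    split_ifs <;> simp
  | monomial n a =>
    rw [Polynomial.aeval_monomial, mul_assoc, ← A.basis_apply (j, n), ← Algebra.smul_def,
      map_smul, Module.Basis.repr_self, Finsupp.smul_apply, Finsupp.single_apply,
      Polynomial.coeff_monomial, smul_eq_mul]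
    obtain ⟨j', t'⟩ := jt
    simp only [Prod.mk.injEq]
    by_cases h1 : j = j' <;> by_cases h2 : n = t' <;> simp [h1, h2]

theorem ValidEasy_repr_sum (p : Fin s.m → Polynomial k) (jt : Fin s.m × ℕ) :
    A.basis.repr (∑ j, Polynomial.aeval A.x (p j) * A.y j) jt = (p jt.1).coeff jt.2 := by
  classical
  rw [map_sum, Finsupp.finsetSum_apply]
  simp only [ValidEasy_repr_aeval_mul_y]
  rw [Finset.sum_eq_single jt.1]
  · rw [if_pos rfl]
  · intro b _ hb
    rw [if_neg hb]
  · intro h
    exact absurd (Finset.mem_univ _) h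

/-- the `y_j` are linearly independent over `k[x]`. -/
theorem sum_aeval_mul_y_eq_zero (p : Fin s.m → Polynomial k)
    (h : ∑ j, Polynomial.aeval A.x (p j) * A.y j = 0) : p = 0 := by
  funext j
  ext t
  have h1 := ValidEasy_repr_sum A p (j, t)
  rw [h, map_zero, Finsupp.zero_apply] at h1
  rw [Pi.zero_apply, Polynomial.coeff_zero]
  exact h1.symm

theorem eval_poly (ξ : k) (i j l : Fin s.m) : (A.c.poly i j l).eval ξ = A.c.ev ξ i j l := by
  simp [Table.poly, Table.ev, Polynomial.eval_finsetSum]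

theorem ValidEasy_triple (i j r : Fin s.m) :
    (A.y i * A.y j) * A.y r
      = ∑ u, Polynomial.aeval A.x (∑ l, A.c.poly i j l * A.c.poly l r u) * A.y u := by
  rw [A.mul_table, Finset.sum_mul]
  simp only [mul_assoc, A.mul_table, Finset.mul_sum, map_sum, map_mul, Finset.sum_mul]
  rw [Finset.sum_comm]

/-- `(y_i y_j) y_r = y_i (y_j y_r)` expanded with the table, `sum_aeval_mul_y_eq_zero`, evaluate at
`ξ`. -/
theorem c_assoc (ξ : k) (i j r u : Fin s.m) :
    ∑ l, A.c.ev ξ i j l * A.c.ev ξ l r u = ∑ l, A.c.ev ξ j r l * A.c.ev ξ i l u := by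
  have h1 := ValidEasy_triple A i j r
  have h2 := ValidEasy_triple A j r i
  have h3 : (A.y i * A.y j) * A.y r = (A.y j * A.y r) * A.y i := by ring
  rw [h1, h2] at h3
  have h4 := sum_aeval_mul_y_eq_zero A
    (fun u => (∑ l, A.c.poly i j l * A.c.poly l r u) - ∑ l, A.c.poly j r l * A.c.poly l i u) (by
      simp only [map_sub, sub_mul, Finset.sum_sub_distrib]
      rw [h3, sub_self])
  have h5 := congrArg (Polynomial.eval ξ) (congrFun h4 u)
  simp only [Polynomial.eval_sub, Polynomial.eval_finsetSum, Polynomial.eval_mul, eval_poly,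
    Pi.zero_apply, Polynomial.eval_zero] at h5
  rw [sub_eq_zero] at h5
  rw [h5]
  refine Finset.sum_congr rfl fun l _ => ?_
  rw [Table.ev, Table.ev, Table.ev, A.c_symm l i]

end Fermat.Agent.S27.E.AlgModel
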