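import Fermat.Agent.S27.E.Defs
import Fermat.Agent.S27.E.LemmaW
import Fermat.Agent.S27.E.ValidEasy

/-!
# Block E / K3, file PointDer: evaluation at a point and derivation attached to a tangent vector
-/

set_option autoImplicit false

namespace Fermat.Agent.S27.E.AlgModel

universe u v

variable {s : Shape} {k : Type u} [Field k] {R : Type v} [CommRing R] [Algebra k R]
  (A : AlgModel s k R)

/-- evaluation at `(ξ, η)`: the linear map `x^t y_j ↦ ξ^t η_j`. -/
noncomputable def evPt (ξ : k) (η : Fin s.m → k) : R →ₗ[k] k :=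
  A.basis.constr k fun jt => ξ ^ jt.2 * η jt.1

/-- the linear map `x^t y_j ↦ t ξ^(t-1) u η_j + ξ^t w_j`. -/
noncomputable def derPt (ξ : k) (η : Fin s.m → k) (u : k) (w : Fin s.m → k) : R →ₗ[k] k :=
  A.basis.constr k fun jt => (jt.2 : k) * ξ ^ (jt.2 - 1) * u * η jt.1 + ξ ^ jt.2 * w jt.1

theorem pointDer_evPt_monomial (ξ : k) (η : Fin s.m → k) (t : ℕ) (j : Fin s.m) :
    A.evPt ξ η (A.x ^ t * A.y j) = ξ ^ t * η j := by
  have h := A.basis_apply (j, t)
  simp only at h
  rw [← h, evPt, Module.Basis.constr_basis]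

theorem pointDer_derPt_monomial (ξ : k) (η : Fin s.m → k) (u : k) (w : Fin s.m → k) (t : ℕ)
    (j : Fin s.m) :
    A.derPt ξ η u w (A.x ^ t * A.y j) = (t : k) * ξ ^ (t - 1) * u * η j + ξ ^ t * w j := by
  have h := A.basis_apply (j, t)
  simp only at h
  rw [← h, derPt, Module.Basis.constr_basis]

theorem pointDer_evPt_aeval (ξ : k) (η : Fin s.m → k) (p : Polynomial k) (j : Fin s.m) :
    A.evPt ξ η (Polynomial.aeval A.x p * A.y j) = p.eval ξ * η j := by
  induction p using Polynomial.induction_on' with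
  | add p q hp hq => rw [map_add, add_mul, map_add, hp, hq, Polynomial.eval_add, add_mul]
  | monomial n a =>
    rw [Polynomial.aeval_monomial, mul_assoc, ← Algebra.smul_def, map_smul,
      pointDer_evPt_monomial, Polynomial.eval_monomial, smul_eq_mul, mul_assoc]

theorem pointDer_derPt_aeval (ξ : k) (η : Fin s.m → k) (u : k) (w : Fin s.m → k)
    (p : Polynomial k) (j : Fin s.m) :
    A.derPt ξ η u w (Polynomial.aeval A.x p * A.y j) =
      p.derivative.eval ξ * u * η j + p.eval ξ * w j := by
  induction p using Polynomial.induction_on' with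
  | add p q hp hq =>
    rw [map_add, add_mul, map_add, hp, hq, Polynomial.eval_add, Polynomial.derivative_add,
      Polynomial.eval_add]
    ring
  | monomial n a =>
    rw [Polynomial.aeval_monomial, mul_assoc, ← Algebra.smul_def, map_smul,
      pointDer_derPt_monomial, Polynomial.eval_monomial, Polynomial.derivative_monomial,
      Polynomial.eval_monomial, smul_eq_mul]
    ring

theorem pointDer_eval_poly (c : Table s k) (ξ : k) (i j l : Fin s.m) :
    (c.poly i j l).eval ξ = c.ev ξ i j l := by
  simp [Table.poly, Table.ev, Polynomial.eval_finsetSum]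

theorem pointDer_eval_derivative_poly (c : Table s k) (ξ : k) (i j l : Fin s.m) :
    (c.poly i j l).derivative.eval ξ = c.dev ξ i j l := by
  simp only [Table.poly, Table.dev, Polynomial.derivative_sum, Polynomial.eval_finsetSum,
    Polynomial.derivative_C_mul_X_pow, Polynomial.eval_mul, Polynomial.eval_C,
    Polynomial.eval_pow, Polynomial.eval_X]
  refine Finset.sum_congr rfl fun t _ => ?_
  ring

/-- product of two "polynomial multiples" of the `y_j`. -/
theorem pointDer_mul_expand (p q : Polynomial k) (i j : Fin s.m) :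
    (Polynomial.aeval A.x p * A.y i) * (Polynomial.aeval A.x q * A.y j) =
      ∑ l, Polynomial.aeval A.x (p * q * A.c.poly i j l) * A.y l := by
  have h : (Polynomial.aeval A.x p * A.y i) * (Polynomial.aeval A.x q * A.y j) =
      Polynomial.aeval A.x (p * q) * (A.y i * A.y j) := by
    rw [map_mul]; ring
  rw [h, A.mul_table, Finset.mul_sum]
  refine Finset.sum_congr rfl fun l _ => ?_
  rw [map_mul (Polynomial.aeval A.x) (p * q), mul_assoc]

theorem pointDer_evPt_mul_aeval {ξ : k} {η : Fin s.m → k} (h : A.c.IsPoint ξ η)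
    (p q : Polynomial k) (i j : Fin s.m) :
    A.evPt ξ η ((Polynomial.aeval A.x p * A.y i) * (Polynomial.aeval A.x q * A.y j)) =
      (p.eval ξ * η i) * (q.eval ξ * η j) := by
  rw [pointDer_mul_expand, map_sum]
  simp only [pointDer_evPt_aeval, Polynomial.eval_mul, pointDer_eval_poly]
  have h2 := h.2 i j
  calc ∑ l, p.eval ξ * q.eval ξ * A.c.ev ξ i j l * η l
      = p.eval ξ * q.eval ξ * ∑ l, A.c.ev ξ i j l * η l := by
        rw [Finset.mul_sum]; exact Finset.sum_congr rfl fun l _ => by ring
    _ = (p.eval ξ * η i) * (q.eval ξ * η j) := by rw [← h2]; ring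

theorem pointDer_derPt_mul_aeval {ξ : k} {η : Fin s.m → k} (h : A.c.IsPoint ξ η) {u : k}
    {w : Fin s.m → k} (ht : A.c.IsTangent ξ η u w) (p q : Polynomial k) (i j : Fin s.m) :
    A.derPt ξ η u w ((Polynomial.aeval A.x p * A.y i) * (Polynomial.aeval A.x q * A.y j)) =
      (p.eval ξ * η i) * (q.derivative.eval ξ * u * η j + q.eval ξ * w j) +
        (p.derivative.eval ξ * u * η i + p.eval ξ * w i) * (q.eval ξ * η j) := by
  rw [pointDer_mul_expand, map_sum]
  simp only [pointDer_derPt_aeval, Polynomial.eval_mul, pointDer_eval_poly,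
    Polynomial.derivative_mul, Polynomial.eval_add, pointDer_eval_derivative_poly]
  have h2 := h.2 i j
  have h3 := ht.2 i j
  calc ∑ l, (((p.derivative.eval ξ * q.eval ξ + p.eval ξ * q.derivative.eval ξ) *
          A.c.ev ξ i j l + p.eval ξ * q.eval ξ * A.c.dev ξ i j l) * u * η l +
          p.eval ξ * q.eval ξ * A.c.ev ξ i j l * w l)
      = (p.derivative.eval ξ * q.eval ξ + p.eval ξ * q.derivative.eval ξ) * u *
          (∑ l, A.c.ev ξ i j l * η l) +
          p.eval ξ * q.eval ξ * ∑ l, (A.c.dev ξ i j l * u * η l + A.c.ev ξ i j l * w l) := by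
        rw [Finset.mul_sum, Finset.mul_sum, ← Finset.sum_add_distrib]
        exact Finset.sum_congr rfl fun l _ => by ring
    _ = _ := by rw [← h2, ← h3]; ring

theorem pointDer_basis_eq (jt : Fin s.m × ℕ) :
    A.basis jt = Polynomial.aeval A.x (Polynomial.X ^ jt.2 : Polynomial k) * A.y jt.1 := by
  rw [A.basis_apply, map_pow, Polynomial.aeval_X]

theorem evPt_one {ξ : k} {η : Fin s.m → k} (h : A.c.IsPoint ξ η) : A.evPt ξ η 1 = 1 := by
  have := A.pointDer_evPt_monomial ξ η 0 s.zero
  rw [A.y_zero, pow_zero, one_mul, pow_zero, one_mul, h.1] at this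
  exact this

/-- check on monomials, using `IsPoint`. -/
theorem evPt_mul {ξ : k} {η : Fin s.m → k} (h : A.c.IsPoint ξ η) (f g : R) :
    A.evPt ξ η (f * g) = A.evPt ξ η f * A.evPt ξ η g := by
  have key : (LinearMap.mul k R).compr₂ (A.evPt ξ η) =
      (LinearMap.mul k k).compl₁₂ (A.evPt ξ η) (A.evPt ξ η) := by
    refine A.basis.ext fun a => A.basis.ext fun b => ?_
    simp only [LinearMap.compr₂_apply, LinearMap.mul_apply', LinearMap.compl₁₂_apply]
    rw [pointDer_basis_eq, pointDer_basis_eq, pointDer_evPt_mul_aeval A h, pointDer_evPt_aeval,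
      pointDer_evPt_aeval]
  have := LinearMap.congr_fun₂ key f g
  simpa only [LinearMap.compr₂_apply, LinearMap.mul_apply', LinearMap.compl₁₂_apply] using this

theorem derPt_one {ξ : k} {η : Fin s.m → k} {u : k} {w : Fin s.m → k}
    (ht : A.c.IsTangent ξ η u w) : A.derPt ξ η u w 1 = 0 := by
  have := A.pointDer_derPt_monomial ξ η u w 0 s.zero
  rw [A.y_zero, pow_zero, one_mul, ht.1] at this
  simpa using this

theorem derPt_x {ξ : k} {η : Fin s.m → k} (h : A.c.IsPoint ξ η) {u : k} {w : Fin s.m → k}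
    (ht : A.c.IsTangent ξ η u w) : A.derPt ξ η u w A.x = u := by
  have := A.pointDer_derPt_monomial ξ η u w 1 s.zero
  rw [A.y_zero, pow_one, mul_one, ht.1, h.1] at this
  simpa using this

theorem derPt_y (ξ : k) (η : Fin s.m → k) (u : k) (w : Fin s.m → k) (j : Fin s.m) :
    A.derPt ξ η u w (A.y j) = w j := by
  have := A.pointDer_derPt_monomial ξ η u w 0 j
  simpa using this

/-- Leibniz rule: check on monomials, using `IsPoint` and `IsTangent`.
Hint: first treat `aeval x p * y_j` for a polynomial `p`: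
`ev = p(ξ) η_j`, `der = p'(ξ) u η_j + p(ξ) w_j`. -/
theorem derPt_mul {ξ : k} {η : Fin s.m → k} (h : A.c.IsPoint ξ η) {u : k} {w : Fin s.m → k}
    (ht : A.c.IsTangent ξ η u w) (f g : R) :
    A.derPt ξ η u w (f * g) =
      A.evPt ξ η f * A.derPt ξ η u w g + A.derPt ξ η u w f * A.evPt ξ η g := by
  have key : (LinearMap.mul k R).compr₂ (A.derPt ξ η u w) =
      (LinearMap.mul k k).compl₁₂ (A.evPt ξ η) (A.derPt ξ η u w) +
        (LinearMap.mul k k).compl₁₂ (A.derPt ξ η u w) (A.evPt ξ η) := by
    refine A.basis.ext fun a => A.basis.ext fun b => ?_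
    simp only [LinearMap.compr₂_apply, LinearMap.mul_apply', LinearMap.compl₁₂_apply,
      LinearMap.add_apply]
    rw [pointDer_basis_eq, pointDer_basis_eq, pointDer_derPt_mul_aeval A h ht,
      pointDer_evPt_aeval, pointDer_evPt_aeval, pointDer_derPt_aeval, pointDer_derPt_aeval]
  have := LinearMap.congr_fun₂ key f g
  simpa only [LinearMap.compr₂_apply, LinearMap.mul_apply', LinearMap.compl₁₂_apply,
    LinearMap.add_apply] using this

end Fermat.Agent.S27.E.AlgModel
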