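import Fermat.Agent.S27.E.Defs
import Fermat.Agent.S27.E.LemmaW
import Fermat.Agent.S27.E.Codim
import Fermat.Agent.S27.E.CodimMul
import Fermat.Agent.S27.E.ValidEasy
import Fermat.Agent.S27.E.PointDer

/-!
# Block E / K3, file ValidSmooth: the field `smooth` of `Valid s A.c`
-/

set_option autoImplicit false

namespace Fermat.Agent.S27.E.AlgModel

universe u v

variable {s : Shape} {k : Type u} [Field k] {R : Type v} [CommRing R] [Algebra k R]
  (A : AlgModel s k R)

/-- **smoothness.**  `P := ker (evPt)` is an ideal with `R ⧸ P ≃ k`, so `codim P = 1`, `P ≠ ⊥`,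
`codim (P^2) = 2` (`codim_pow`).  `δ = derPt .. u w`, `δ' = derPt .. u' w'` vanish on `P^2` and on
`1`, and `R = k·1 + P`, so they factor through `R ⧸ (k·1 + P^2)` which has dimension `1`:
they are proportional.  Evaluate at `x` and `y_j` (`derPt_x`, `derPt_y`). -/
theorem c_smooth [IsDedekindDomain R] (hA : A.RhoMul) (ξ : k) (η : Fin s.m → k)
    (h : A.c.IsPoint ξ η) (u u' : k) (w w' : Fin s.m → k)
    (ht : A.c.IsTangent ξ η u w) (ht' : A.c.IsTangent ξ η u' w') :
    ∃ α β : k, (α ≠ 0 ∨ β ≠ 0) ∧ α * u + β * u' = 0 ∧ ∀ j, α * w j + β * w' j = 0 := by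
  classical
  -- evaluation as an algebra hom
  let evA : R →ₐ[k] k := AlgHom.ofLinearMap (A.evPt ξ η) (A.evPt_one h) (A.evPt_mul h)
  have evA_apply : ∀ f, evA f = A.evPt ξ η f := fun f => rfl
  have hsurj : Function.Surjective evA := by
    intro a
    refine ⟨algebraMap k R a, ?_⟩
    simp
  set P : Ideal R := RingHom.ker evA with hP
  have hmemP : ∀ f, f ∈ P ↔ A.evPt ξ η f = 0 := by
    intro f
    rw [hP, RingHom.mem_ker]
    exact Iff.rfl
  have hcodP : A.codim P = 1 := by
    have e := (Ideal.quotientKerAlgEquivOfSurjective hsurj).toLinearEquiv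
    have := e.finrank_eq
    rw [Module.finrank_self] at this
    exact this
  have hPbot : P ≠ ⊥ := by
    intro hbot
    set c : k := A.evPt ξ η (A.basis (s.zero, 1)) with hc
    have hmem : A.basis (s.zero, 1) - c • A.basis (s.zero, 0) ∈ P := by
      rw [hmemP, map_sub, map_smul, ← A.one_eq_basis, A.evPt_one h]
      simp [hc]
    rw [hbot, Ideal.mem_bot] at hmem
    have := congrArg (fun f => A.basis.repr f (s.zero, 1)) hmem
    simp at this
  have hcod2 : A.codim (P ^ 2) = 2 := by
    rw [A.codim_pow hA hPbot, hcodP]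
  set W : Submodule k R := (P ^ 2).restrictScalars k with hW
  have hfrW : Module.finrank k (R ⧸ W) = 2 := by
    rw [← hcod2]
    exact (Submodule.Quotient.restrictScalarsEquiv k (P ^ 2)).finrank_eq
  have hfinW : Module.Finite k (R ⧸ W) := by
    apply Module.finite_of_finrank_pos
    omega
  -- a linear functional which is a "derivation at the point" kills `P ^ 2`
  have hkill : ∀ δ : R →ₗ[k] k,
      (∀ f g, δ (f * g) = A.evPt ξ η f * δ g + δ f * A.evPt ξ η g) → W ≤ LinearMap.ker δ := by
    intro δ hδ f hf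
    have hf' : f ∈ P ^ 2 := hf
    rw [pow_two] at hf'
    rw [LinearMap.mem_ker]
    refine Submodule.mul_induction_on hf' ?_ ?_
    · intro a ha b hb
      rw [hδ, (hmemP a).1 ha, (hmemP b).1 hb]
      simp
    · intro a b ha hb
      rw [map_add, ha, hb, add_zero]
  have hkev : W ≤ LinearMap.ker (A.evPt ξ η) := by
    intro f hf
    have hf' : f ∈ P ^ 2 := hf
    rw [LinearMap.mem_ker]
    exact (hmemP f).1 (Ideal.pow_le_self (by norm_num) hf')
  have hk1 := hkill (A.derPt ξ η u w) (A.derPt_mul h ht)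
  have hk2 := hkill (A.derPt ξ η u' w') (A.derPt_mul h ht')
  let v : Fin 3 → Module.Dual k (R ⧸ W) :=
    ![W.liftQ (A.evPt ξ η) hkev, W.liftQ (A.derPt ξ η u w) hk1, W.liftQ (A.derPt ξ η u' w') hk2]
  have hnli : ¬ LinearIndependent k v := by
    intro hli
    have := hli.fintype_card_le_finrank
    rw [Subspace.dual_finrank_eq, hfrW] at this
    simp at this
  obtain ⟨g, hg, i, hi⟩ := Fintype.not_linearIndependent_iff.1 hnli
  have hrel : ∀ f : R, g 0 * A.evPt ξ η f + g 1 * A.derPt ξ η u w f
      + g 2 * A.derPt ξ η u' w' f = 0 := by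
    intro f
    have := congrArg (fun φ : Module.Dual k (R ⧸ W) => φ (W.mkQ f)) hg
    simpa [Fin.sum_univ_three, v] using this
  have hg0 : g 0 = 0 := by
    have := hrel 1
    rw [A.evPt_one h, A.derPt_one ht, A.derPt_one ht'] at this
    simpa using this
  refine ⟨g 1, g 2, ?_, ?_, ?_⟩
  · by_contra hcon
    push Not at hcon
    fin_cases i
    · exact hi hg0
    · exact hi hcon.1
    · exact hi hcon.2
  · have := hrel A.x
    rw [hg0, A.derPt_x h ht, A.derPt_x h ht'] at this
    simpa using this
  · intro j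
    have := hrel (A.y j)
    rw [hg0, A.derPt_y, A.derPt_y] at this
    simpa using this

/-- **K3** in algebraic form. -/
theorem valid [IsDedekindDomain R] (hA : A.RhoMul) : Valid s A.c where
  symm := A.c_symm
  unit := A.c_unit
  wt := A.c_wt hA
  lead := A.c_lead hA
  assoc := A.c_assoc
  smooth := A.c_smooth hA

end Fermat.Agent.S27.E.AlgModel
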