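import Fermat.Agent.S27.Model
import Fermat.Agent.S27.E.Defs
import Fermat.Agent.S27.E.Count
import Fermat.Agent.S27.E.PicClass
import Fermat.Agent.S27.E.PicClass2
import Fermat.Agent.S27.E.ValidSmooth

/-!
# Block E: main theorems, modulo the contract `StmtAPI` with block API
-/

set_option autoImplicit false

namespace Fermat.Agent.S27.E

open AlgebraicCurve IsDedekindDomain

universe u v

/-- What block E needs from block API: the ring `R` of functions regular outside `inf` is a
Dedekind domain with fraction field `F`, it is an `AlgModel` with table `M.c` and multiplicative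
weight, and its primes are the places `≠ inf`. -/
def StmtAPI : Prop :=
  ∀ (k : Type u) (F : Type v) [Field k] [Field F] [Algebra k F] (s : Shape), CurveHyp k F →
    ∀ M : OnePointModel k F s,
      ∃ (R : Type v) (_ : CommRing R) (_ : Algebra k R) (_ : Algebra R F) (_ : IsScalarTower k R F)
        (_ : IsDedekindDomain R) (_ : IsFractionRing R F) (A : AlgModel s k R),
        A.c = M.c ∧ A.RhoMul ∧
        (∀ v : Place k F, v ≠ M.inf → ∀ b : R, algebraMap R F b ∈ v.toValuationSubring) ∧
        (∀ w : HeightOneSpectrum R, Place.ofHeightOneSpectrum (K := k) (F := F) w ≠ M.inf)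

theorem stmtE_of_API (hAPI : StmtAPI.{u, v}) : StmtE.{u, v} := by
  intro k F _ _ _ s h M n hn
  obtain ⟨R, _, _, _, _, _, _, A, hc, hA, hreg, hinf⟩ := hAPI k F s h M
  rw [← hc, A.count_iff hA n hn, card_torsion_eq h.toBaseHyp M.inf hreg hinf n]

theorem stmtK3_of_API (hAPI : StmtAPI.{u, v}) : StmtK3.{u, v} := by
  intro k F _ _ _ s h M
  obtain ⟨R, _, _, _, _, _, _, A, hc, hA, -, -⟩ := hAPI k F s h M
  rw [← hc]
  exact A.valid hA

end Fermat.Agent.S27.E
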